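import Fermat.Agent.Cheb.PrimeIdealSum

set_option autoImplicit false

namespace Fermat.Agent.Cheb

open NumberField Filter Topology IsDedekindDomain

variable (F : Type*) [Field F] [NumberField F]

/-- The rational prime below a prime ideal. -/
noncomputable def below (𝔭 : HeightOneSpectrum (𝓞 F)) : ℕ := Ideal.absNorm (𝔭.asIdeal.under ℤ)

theorem below_prime (𝔭 : HeightOneSpectrum (𝓞 F)) : (below F 𝔭).Prime := by
  have : NeZero 𝔭.asIdeal := ⟨𝔭.ne_bot⟩
  have := 𝔭.isPrime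
  exact Nat.absNorm_under_prime 𝔭.asIdeal

theorem absNorm_eq_below_pow (𝔭 : HeightOneSpectrum (𝓞 F)) :
    Ideal.absNorm 𝔭.asIdeal = below F 𝔭 ^ (𝔭.asIdeal.inertiaDeg ℤ) := by
  have := 𝔭.isPrime
  exact (Ideal.absNorm_pow_inertiaDeg (𝔭.asIdeal.under ℤ) 𝔭.asIdeal).symm

theorem below_sq_le (𝔭 : HeightOneSpectrum (𝓞 F)) (h : ¬ (Ideal.absNorm 𝔭.asIdeal).Prime) :
    below F 𝔭 ^ 2 ≤ Ideal.absNorm 𝔭.asIdeal := by
  have := 𝔭.isPrime
  have h0 : 0 < 𝔭.asIdeal.inertiaDeg ℤ := 𝔭.asIdeal.inertiaDeg_pos ℤ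
  have h1 : 𝔭.asIdeal.inertiaDeg ℤ ≠ 1 := by
    intro h1
    apply h
    rw [absNorm_eq_below_pow, h1, pow_one]
    exact below_prime F 𝔭
  rw [absNorm_eq_below_pow]
  exact Nat.pow_le_pow_right (below_prime F 𝔭).pos (by omega)

theorem card_primesOver_le (p : Ideal ℤ) [p.IsPrime] [Fintype (p.primesOver (𝓞 F))] :
    Fintype.card (p.primesOver (𝓞 F)) ≤ Module.finrank ℤ (𝓞 F) := by
  rw [← Ideal.sum_ramification_inertia_eq_finrank p (𝓞 F), Fintype.card_eq_sum_ones]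
  refine Finset.sum_le_sum fun q _ => ?_
  have := q.2.1
  exact Nat.one_le_iff_ne_zero.mpr
    (mul_ne_zero (q.1.ramificationIdx_pos ℤ).ne' (q.1.inertiaDeg_pos ℤ).ne')

open Classical in
theorem card_filter_below_le (S : Finset (HeightOneSpectrum (𝓞 F))) (b : ℕ) :
    (S.filter (fun 𝔭 => below F 𝔭 = b)).card ≤ Module.finrank ℤ (𝓞 F) := by
  rcases (S.filter (fun 𝔭 => below F 𝔭 = b)).eq_empty_or_nonempty with h | ⟨𝔭₀, h₀⟩
  · rw [h]; simp
  have hb : b.Prime := by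
    rw [← (Finset.mem_filter.mp h₀).2]; exact below_prime F 𝔭₀
  have hp : (Ideal.span {(b : ℤ)}).IsPrime := by
    rw [Ideal.span_singleton_prime (by exact_mod_cast hb.ne_zero)]
    exact Nat.prime_iff_prime_int.mp hb
  have : Fintype ((Ideal.span {(b : ℤ)}).primesOver (𝓞 F)) :=
    (Algebra.QuasiFinite.finite_primesOver _).fintype
  refine le_trans ?_ (card_primesOver_le F (Ideal.span {(b : ℤ)}))
  rw [← Finset.card_univ]
  have hmem : ∀ 𝔭 ∈ S.filter (fun 𝔭 => below F 𝔭 = b),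
      𝔭.asIdeal ∈ (Ideal.span {(b : ℤ)}).primesOver (𝓞 F) := by
    intro 𝔭 h𝔭
    refine ⟨𝔭.isPrime, ?_⟩
    rw [← (Finset.mem_filter.mp h𝔭).2]
    exact Int.liesOver_span_absNorm 𝔭.asIdeal
  refine Finset.card_le_card_of_injOn
    (fun 𝔭 => if h : 𝔭 ∈ S.filter (fun 𝔭 => below F 𝔭 = b) then ⟨𝔭.asIdeal, hmem 𝔭 h⟩
      else ⟨𝔭₀.asIdeal, hmem 𝔭₀ h₀⟩) (fun _ _ => Finset.mem_univ _) ?_
  intro 𝔭 h𝔭 𝔮 h𝔮 heq
  rw [Finset.mem_coe] at h𝔭 h𝔮
  simp only [dif_pos h𝔭, dif_pos h𝔮, Subtype.mk.injEq] at heq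
  exact HeightOneSpectrum.ext heq

/-- The constant bounding the contribution of the primes of degree `≥ 2`. -/
noncomputable def degTwoConst : ℝ := (Module.finrank ℤ (𝓞 F) : ℝ) * ∑' n : ℕ, (n : ℝ) ^ (-2 : ℝ)

theorem nrm_le_below {s : ℝ} (hs : 1 < s) (𝔭 : HeightOneSpectrum (𝓞 F))
    (h : ¬ (Ideal.absNorm 𝔭.asIdeal).Prime) : nrm F s 𝔭.asIdeal ≤ (below F 𝔭 : ℝ) ^ (-2 : ℝ) := by
  have h1 : ((below F 𝔭 : ℝ)) ^ 2 ≤ (Ideal.absNorm 𝔭.asIdeal : ℝ) := by
    exact_mod_cast below_sq_le F 𝔭 h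
  have hb : (0 : ℝ) < below F 𝔭 := by exact_mod_cast (below_prime F 𝔭).pos
  have hN : (1 : ℝ) ≤ (Ideal.absNorm 𝔭.asIdeal : ℝ) := by
    have := two_le_absNorm F 𝔭
    exact_mod_cast (by omega : 1 ≤ Ideal.absNorm 𝔭.asIdeal)
  unfold nrm
  calc (Ideal.absNorm 𝔭.asIdeal : ℝ) ^ (-s) ≤ (Ideal.absNorm 𝔭.asIdeal : ℝ) ^ (-1 : ℝ) :=
        Real.rpow_le_rpow_of_exponent_le hN (by linarith)
    _ ≤ ((below F 𝔭 : ℝ) ^ 2) ^ (-1 : ℝ) :=
        Real.rpow_le_rpow_of_nonpos (by positivity) h1 (by norm_num)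
    _ = (below F 𝔭 : ℝ) ^ (-2 : ℝ) := by
        rw [← Real.rpow_natCast, ← Real.rpow_mul hb.le]; norm_num

open Classical in
theorem sum_nonprime_le {s : ℝ} (hs : 1 < s) (S : Finset (HeightOneSpectrum (𝓞 F))) :
    ∑ 𝔭 ∈ S, (if (Ideal.absNorm 𝔭.asIdeal).Prime then 0 else nrm F s 𝔭.asIdeal) ≤
      degTwoConst F := by
  have hsum : Summable (fun n : ℕ => (n : ℝ) ^ (-2 : ℝ)) :=
    Real.summable_nat_rpow.mpr (by norm_num)
  calc ∑ 𝔭 ∈ S, (if (Ideal.absNorm 𝔭.asIdeal).Prime then 0 else nrm F s 𝔭.asIdeal)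
      ≤ ∑ 𝔭 ∈ S, (below F 𝔭 : ℝ) ^ (-2 : ℝ) := by
        refine Finset.sum_le_sum fun 𝔭 _ => ?_
        split_ifs with h
        · positivity
        · exact nrm_le_below F hs 𝔭 h
    _ = ∑ b ∈ S.image (below F), (S.filter (fun 𝔭 => below F 𝔭 = b)).card • (b : ℝ) ^ (-2 : ℝ) :=
        Finset.sum_comp (fun b : ℕ => (b : ℝ) ^ (-2 : ℝ)) (below F)
    _ ≤ ∑ b ∈ S.image (below F), (Module.finrank ℤ (𝓞 F) : ℝ) * (b : ℝ) ^ (-2 : ℝ) := by
        refine Finset.sum_le_sum fun b _ => ?_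
        rw [nsmul_eq_mul]
        refine mul_le_mul_of_nonneg_right ?_ (by positivity)
        exact_mod_cast card_filter_below_le F S b
    _ = (Module.finrank ℤ (𝓞 F) : ℝ) * ∑ b ∈ S.image (below F), (b : ℝ) ^ (-2 : ℝ) := by
        rw [Finset.mul_sum]
    _ ≤ degTwoConst F := by
        refine mul_le_mul_of_nonneg_left ?_ (Nat.cast_nonneg _)
        exact hsum.sum_le_tsum _ (fun _ _ => by positivity)

/-- `∑_l a_F(l) l^(-s)` over rational primes `l`, where `a_F(l) = idealCount F l` is the number of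
ideals of norm `l` (= the number of primes of degree one over `l`). -/
noncomputable def primeSum (s : ℝ) : ℝ :=
  ∑' l : Nat.Primes, (idealCount F l : ℝ) * ((l : ℕ) : ℝ) ^ (-s)

theorem summable_primeSum {s : ℝ} (hs : 1 < s) :
    Summable fun l : Nat.Primes => (idealCount F l : ℝ) * ((l : ℕ) : ℝ) ^ (-s) :=
  (summable_idealCount_mul_rpow F hs).subtype _

open Classical in
theorem primeSum_eq_tsum_nat (s : ℝ) :
    primeSum F s = ∑' n : ℕ, (if n.Prime then (idealCount F n : ℝ) * (n : ℝ) ^ (-s) else 0) := by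
  unfold primeSum
  have := tsum_subtype {n : ℕ | n.Prime} (fun n : ℕ => (idealCount F n : ℝ) * (n : ℝ) ^ (-s))
  refine Eq.trans ?_ (this.trans (tsum_congr fun n => ?_))
  · rfl
  · by_cases h : n.Prime
    · rw [Set.indicator_of_mem (by exact h), if_pos h]
    · rw [Set.indicator_of_notMem (by exact h), if_neg h]

open Classical in
theorem tsum_ideal_prime_norm {s : ℝ} (hs : 1 < s) :
    ∑' I : Ideal (𝓞 F), (if (Ideal.absNorm I).Prime then nrm F s I else 0) = primeSum F s := by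
  have hsum : Summable (fun I : Ideal (𝓞 F) => if (Ideal.absNorm I).Prime then nrm F s I else 0) := by
    refine Summable.of_nonneg_of_le (fun I => ?_) (fun I => ?_) (summable_nrm F hs)
    · split_ifs
      · exact nrm_nonneg F s I
      · exact le_rfl
    · split_ifs
      · exact le_rfl
      · exact nrm_nonneg F s I
  rw [← (Equiv.sigmaFiberEquiv (fun I : Ideal (𝓞 F) => Ideal.absNorm I)).summable_iff] at hsum
  rw [primeSum_eq_tsum_nat, ← (Equiv.sigmaFiberEquiv (fun I : Ideal (𝓞 F) => Ideal.absNorm I)).tsum_eq]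
  refine (hsum.tsum_sigma).trans (tsum_congr fun n => ?_)
  by_cases h : n.Prime
  · rw [if_pos h, ← tsum_fiber_absNorm F s n]
    refine tsum_congr fun x => ?_
    show (if (Ideal.absNorm x.1).Prime then nrm F s x.1 else 0) = _
    rw [if_pos (by rw [x.2]; exact h)]
    rfl
  · rw [if_neg h]
    refine (tsum_congr fun x => ?_).trans tsum_zero
    show (if (Ideal.absNorm x.1).Prime then nrm F s x.1 else 0) = _
    rw [if_neg (by rw [x.2]; exact h)]

open Classical in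
theorem tsum_prime_degOne {s : ℝ} (hs : 1 < s) :
    ∑' 𝔭 : HeightOneSpectrum (𝓞 F), (if (Ideal.absNorm 𝔭.asIdeal).Prime then nrm F s 𝔭.asIdeal else 0)
      = primeSum F s := by
  rw [← tsum_ideal_prime_norm F hs]
  have hinj : Function.Injective (fun 𝔭 : HeightOneSpectrum (𝓞 F) => 𝔭.asIdeal) :=
    fun _ _ h => HeightOneSpectrum.ext h
  refine hinj.tsum_eq (f := fun I : Ideal (𝓞 F) => if (Ideal.absNorm I).Prime then nrm F s I else 0) ?_
  intro I hI
  have hp : (Ideal.absNorm I).Prime := by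
    by_contra h
    rw [Function.mem_support, if_neg h] at hI
    exact hI rfl
  have hbot : I ≠ ⊥ := by
    rintro rfl
    rw [Ideal.absNorm_bot] at hp
    exact Nat.not_prime_zero hp
  exact ⟨⟨I, Ideal.isPrime_of_irreducible_absNorm hp, hbot⟩, rfl⟩

open Classical in
theorem primeIdealSum_eq {s : ℝ} (hs : 1 < s) :
    primeIdealSum F s = primeSum F s +
      ∑' 𝔭 : HeightOneSpectrum (𝓞 F),
        (if (Ideal.absNorm 𝔭.asIdeal).Prime then 0 else nrm F s 𝔭.asIdeal) := by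
  have h0 := summable_nrm_prime F hs
  have h1 : Summable (fun 𝔭 : HeightOneSpectrum (𝓞 F) =>
      if (Ideal.absNorm 𝔭.asIdeal).Prime then nrm F s 𝔭.asIdeal else 0) := by
    refine Summable.of_nonneg_of_le (fun 𝔭 => ?_) (fun 𝔭 => ?_) h0
    · split_ifs
      · exact nrm_nonneg F s _
      · exact le_rfl
    · split_ifs
      · exact le_rfl
      · exact nrm_nonneg F s _
  have h2 : Summable (fun 𝔭 : HeightOneSpectrum (𝓞 F) =>
      if (Ideal.absNorm 𝔭.asIdeal).Prime then 0 else nrm F s 𝔭.asIdeal) := by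
    refine Summable.of_nonneg_of_le (fun 𝔭 => ?_) (fun 𝔭 => ?_) h0
    · split_ifs
      · exact le_rfl
      · exact nrm_nonneg F s _
    · split_ifs
      · exact nrm_nonneg F s _
      · exact le_rfl
  rw [← tsum_prime_degOne F hs, ← h1.tsum_add h2]
  refine tsum_congr fun 𝔭 => ?_
  split_ifs <;> simp

open Classical in
theorem primeSum_le_primeIdealSum {s : ℝ} (hs : 1 < s) : primeSum F s ≤ primeIdealSum F s := by
  rw [primeIdealSum_eq F hs]
  have : 0 ≤ ∑' 𝔭 : HeightOneSpectrum (𝓞 F),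
      (if (Ideal.absNorm 𝔭.asIdeal).Prime then 0 else nrm F s 𝔭.asIdeal) :=
    tsum_nonneg fun 𝔭 => by
      split_ifs
      · exact le_rfl
      · exact nrm_nonneg F s _
  linarith

open Classical in
theorem primeIdealSum_le_primeSum_add {s : ℝ} (hs : 1 < s) :
    primeIdealSum F s ≤ primeSum F s + degTwoConst F := by
  rw [primeIdealSum_eq F hs]
  have h0 := summable_nrm_prime F hs
  have h2 : Summable (fun 𝔭 : HeightOneSpectrum (𝓞 F) =>
      if (Ideal.absNorm 𝔭.asIdeal).Prime then 0 else nrm F s 𝔭.asIdeal) := by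
    refine Summable.of_nonneg_of_le (fun 𝔭 => ?_) (fun 𝔭 => ?_) h0
    · split_ifs
      · exact le_rfl
      · exact nrm_nonneg F s _
    · split_ifs
      · exact nrm_nonneg F s _
      · exact le_rfl
  have := h2.tsum_le_of_sum_le (sum_nonprime_le F hs)
  linarith

theorem degTwoConst_nonneg : 0 ≤ degTwoConst F :=
  mul_nonneg (Nat.cast_nonneg _) (tsum_nonneg fun n => by positivity)

/-- **Main analytic input for Chebotarev.**
`∑_l a_F(l) l^(-s) = log (1/(s-1)) + O(1)` on `(1, 2]`, where `l` runs over the rational primes and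
`a_F(l)` is the number of ideals of `𝓞 F` of norm `l`. -/
theorem primeSum_asymp :
    ∃ C : ℝ, ∀ s : ℝ, 1 < s → s ≤ 2 → |primeSum F s - Real.log (1 / (s - 1))| ≤ C := by
  obtain ⟨C, hC⟩ := primeIdealSum_asymp F
  refine ⟨C + degTwoConst F, fun s hs hs2 => ?_⟩
  have h1 := primeSum_le_primeIdealSum F hs
  have h2 := primeIdealSum_le_primeSum_add F hs
  have h3 := abs_le.mp (hC s hs hs2)
  have h4 := degTwoConst_nonneg F
  rw [abs_le]
  constructor <;> linarith [h3.1, h3.2]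

end Fermat.Agent.Cheb
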