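import Mathlib

set_option autoImplicit false

namespace Fermat.Agent.Cheb

/-- Abstract analytic core of the density argument: finitely many prime-indexed Dirichlet series
which all behave like `log (1/(s-1)) + O(1)` cannot have a linear combination with positive total
weight whose coefficients vanish outside a finite set of primes. -/
theorem analytic_contradiction {ι : Type*} (D : Finset ι) (c : ι → ℝ) (a : ι → Nat.Primes → ℝ)
    (hsum : ∀ d ∈ D, ∀ s : ℝ, 1 < s → Summable fun l : Nat.Primes => a d l * ((l : ℕ) : ℝ) ^ (-s))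
    (hasymp : ∀ d ∈ D, ∃ C : ℝ, ∀ s : ℝ, 1 < s → s ≤ 2 →
        |(∑' l : Nat.Primes, a d l * ((l : ℕ) : ℝ) ^ (-s)) - Real.log (1 / (s - 1))| ≤ C)
    (hc : 0 < ∑ d ∈ D, c d)
    (B : Finset Nat.Primes) (hB : ∀ l : Nat.Primes, l ∉ B → ∑ d ∈ D, c d * a d l = 0) : False := by
  classical
  choose! C hC using hasymp
  set M : ℝ := ∑ l ∈ B, |∑ d ∈ D, c d * a d l| with hM
  set E : ℝ := ∑ d ∈ D, |c d| * C d with hE
  set c0 : ℝ := ∑ d ∈ D, c d with hc0
  -- choose `K`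
  obtain ⟨K, hK0, hK⟩ : ∃ K : ℝ, 0 < K ∧ M + E < c0 * K := by
    refine ⟨(|M + E| + 1) / c0, by positivity, ?_⟩
    rw [mul_div_cancel₀ _ hc.ne']
    linarith [le_abs_self (M + E)]
  set s : ℝ := 1 + Real.exp (-K) with hs
  have hs1 : 1 < s := by rw [hs]; linarith [Real.exp_pos (-K)]
  have hs2 : s ≤ 2 := by
    have : Real.exp (-K) ≤ 1 := Real.exp_le_one_iff.2 (by linarith)
    rw [hs]; linarith
  have hlog : Real.log (1 / (s - 1)) = K := by
    rw [hs, add_sub_cancel_left, one_div, ← Real.exp_neg, neg_neg, Real.log_exp]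
  -- the combination as a single series
  have h1 : ∑ d ∈ D, c d * (∑' l : Nat.Primes, a d l * ((l : ℕ) : ℝ) ^ (-s))
      = ∑' l : Nat.Primes, (∑ d ∈ D, c d * a d l) * ((l : ℕ) : ℝ) ^ (-s) := by
    have : ∀ l : Nat.Primes, (∑ d ∈ D, c d * a d l) * ((l : ℕ) : ℝ) ^ (-s)
        = ∑ d ∈ D, c d * (a d l * ((l : ℕ) : ℝ) ^ (-s)) := by
      intro l; rw [Finset.sum_mul]; exact Finset.sum_congr rfl fun d _ => by ring
    simp_rw [this]
    rw [Summable.tsum_finsetSum (fun d hd => (hsum d hd s hs1).mul_left (c d))]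
    exact Finset.sum_congr rfl fun d _ => (tsum_mul_left).symm
  have h2 : ∑' l : Nat.Primes, (∑ d ∈ D, c d * a d l) * ((l : ℕ) : ℝ) ^ (-s)
      = ∑ l ∈ B, (∑ d ∈ D, c d * a d l) * ((l : ℕ) : ℝ) ^ (-s) :=
    tsum_eq_sum fun l hl => by rw [hB l hl, zero_mul]
  have h3 : ∑ l ∈ B, (∑ d ∈ D, c d * a d l) * ((l : ℕ) : ℝ) ^ (-s) ≤ M := by
    rw [hM]
    refine Finset.sum_le_sum fun l _ => ?_
    have hl1 : (1 : ℝ) ≤ ((l : ℕ) : ℝ) := by exact_mod_cast l.2.one_lt.le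
    have hp0 : 0 ≤ ((l : ℕ) : ℝ) ^ (-s) := Real.rpow_nonneg (by linarith) _
    have hp1 : ((l : ℕ) : ℝ) ^ (-s) ≤ 1 := Real.rpow_le_one_of_one_le_of_nonpos hl1 (by linarith)
    calc (∑ d ∈ D, c d * a d l) * ((l : ℕ) : ℝ) ^ (-s)
        ≤ |∑ d ∈ D, c d * a d l| * ((l : ℕ) : ℝ) ^ (-s) :=
          mul_le_mul_of_nonneg_right (le_abs_self _) hp0
      _ ≤ |∑ d ∈ D, c d * a d l| * 1 := mul_le_mul_of_nonneg_left hp1 (abs_nonneg _)
      _ = _ := mul_one _
  have h4 : c0 * K - E ≤ ∑ d ∈ D, c d * (∑' l : Nat.Primes, a d l * ((l : ℕ) : ℝ) ^ (-s)) := by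
    rw [hc0, hE, Finset.sum_mul, ← Finset.sum_sub_distrib]
    refine Finset.sum_le_sum fun d hd => ?_
    have h := hC d hd s hs1 hs2
    rw [hlog] at h
    set P := ∑' l : Nat.Primes, a d l * ((l : ℕ) : ℝ) ^ (-s)
    have h5 : |c d * (P - K)| ≤ |c d| * C d := by
      rw [abs_mul]; exact mul_le_mul_of_nonneg_left h (abs_nonneg _)
    have h6 := (abs_le.1 h5).1
    nlinarith [h6]
  rw [h1, h2] at h4
  linarith

end Fermat.Agent.Cheb
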