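import Fermat.Agent.Cheb.Spec
import Fermat.Prelude.Def_GaloisRep_Adic

/-!
# Consumer toolkit for generator-Chebotarev

* `PreludeSpec.induction` : density principle.
* `charpoly_map_mk_eq_of_sub_mem` : endomorphisms congruent mod `I` have congruent charpolys.
* `charpoly_pow_map_eq` : in rank 2 the charpoly of `f ^ a` is determined by the charpoly of `f`.
* `PreludeSpec.charpoly_map_eq` : two adic Galois representations whose Frobenius charpolys agree
  outside a finite set of primes have the same charpolys everywhere.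
-/

set_option autoImplicit false

namespace Fermat.Agent.Cheb

open Polynomial

local notation "Qbar" => AlgebraicClosure ℚ
local notation "GQ" => (AlgebraicClosure ℚ ≃ₐ[ℚ] AlgebraicClosure ℚ)

/-- Density principle: a property of elements of `G_ℚ` which is closed, stable under powers and
true for all Frobenius lifts outside a finite set of primes holds everywhere. -/
theorem PreludeSpec.induction (h : PreludeSpec) (T : Finset ℕ) (P : GQ → Prop)
    (hclosed : ∀ σ : GQ, (∀ L : IntermediateField ℚ Qbar, FiniteDimensional ℚ L →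
      ∃ σ' : GQ, (∀ x ∈ L, σ' x = σ x) ∧ P σ') → P σ)
    (hpow : ∀ (τ : GQ) (a : ℕ), P τ → P (τ ^ a))
    (hfrob : ∀ ℓ : ℕ, ℓ.Prime → ℓ ∉ T → ∀ A : ValuationSubring Qbar, A.LiesOverPrime ℓ →
      ∀ τ : GQ, A.IsFrobeniusAt τ ℓ → P τ) (σ : GQ) : P σ := by
  refine hclosed σ fun L hL => ?_
  obtain ⟨ℓ, A, τ, a, b, hℓ, hT, hA, hτ, -, h1, -⟩ := h L hL σ T
  exact ⟨τ ^ a, h1, hpow τ a (hfrob ℓ hℓ hT A hA τ hτ)⟩

section Congruence

variable {R : Type*} [CommRing R] {V : Type*} [AddCommGroup V] [Module R V]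

theorem repr_mem_of_mem_smul_top {ι : Type*} (b : Module.Basis ι R V) (I : Ideal R) {x : V}
    (hx : x ∈ I • (⊤ : Submodule R V)) (i : ι) : b.repr x i ∈ I := by
  induction hx using Submodule.smul_induction_on' with
  | smul r hr n _ =>
    rw [map_smul, Finsupp.smul_apply, smul_eq_mul]
    exact I.mul_mem_right _ hr
  | add x _ y _ hx hy =>
    rw [map_add, Finsupp.add_apply]
    exact I.add_mem hx hy

variable [Module.Free R V] [Module.Finite R V]

/-- Endomorphisms congruent modulo `I` have charpolys congruent modulo `I`. -/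
theorem charpoly_map_mk_eq_of_sub_mem (I : Ideal R) (f g : Module.End R V)
    (hfg : ∀ v, f v - g v ∈ I • (⊤ : Submodule R V)) :
    f.charpoly.map (Ideal.Quotient.mk I) = g.charpoly.map (Ideal.Quotient.mk I) := by
  classical
  let b := Module.Free.chooseBasis R V
  rw [← LinearMap.charpoly_toMatrix f b, ← LinearMap.charpoly_toMatrix g b,
    ← Matrix.charpoly_map, ← Matrix.charpoly_map]
  congr 1
  ext i j
  simp only [Matrix.map_apply, LinearMap.toMatrix_apply]
  rw [Ideal.Quotient.eq, ← Finsupp.sub_apply, ← map_sub]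
  exact repr_mem_of_mem_smul_top b I (hfg _) i

end Congruence

section RankTwo

variable {R S : Type*} [CommRing R] [CommRing S] [Nontrivial R] [Nontrivial S]

theorem matrix_sq_fin_two (M : Matrix (Fin 2) (Fin 2) R) :
    M ^ 2 = M.trace • M - M.det • (1 : Matrix (Fin 2) (Fin 2) R) := by
  have h := Matrix.aeval_self_charpoly M
  rw [Matrix.charpoly_fin_two] at h
  simp only [map_add, map_sub, map_mul, map_pow, aeval_X, aeval_C,
    Algebra.algebraMap_eq_smul_one, smul_mul_assoc, one_mul] at h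
  rw [← sub_eq_zero, ← h]
  abel

theorem matrix_trace_pow_add_two (M : Matrix (Fin 2) (Fin 2) R) (n : ℕ) :
    (M ^ (n + 2)).trace = M.trace * (M ^ (n + 1)).trace - M.det * (M ^ n).trace := by
  rw [pow_add, matrix_sq_fin_two, mul_sub, Matrix.mul_smul, Matrix.mul_smul, mul_one,
    Matrix.trace_sub, Matrix.trace_smul, Matrix.trace_smul, ← pow_succ, smul_eq_mul, smul_eq_mul]

theorem matrix_trace_pow_map (π : R →+* S) (M : Matrix (Fin 2) (Fin 2) R)
    (N : Matrix (Fin 2) (Fin 2) S) (ht : π M.trace = N.trace) (hd : π M.det = N.det) (a : ℕ) :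
    π (M ^ a).trace = (N ^ a).trace := by
  induction a using Nat.strong_induction_on with
  | _ a ih =>
    match a with
    | 0 => simp [Matrix.trace_one, map_ofNat]
    | 1 => simpa using ht
    | n + 2 =>
      rw [matrix_trace_pow_add_two, matrix_trace_pow_add_two, map_sub, map_mul, map_mul, ht, hd,
        ih (n + 1) (by omega), ih n (by omega)]

theorem matrix_charpoly_pow_map (π : R →+* S) (M : Matrix (Fin 2) (Fin 2) R)
    (N : Matrix (Fin 2) (Fin 2) S) (h : M.charpoly.map π = N.charpoly) (a : ℕ) :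
    (M ^ a).charpoly.map π = (N ^ a).charpoly := by
  have ht : π M.trace = N.trace := by
    have := congrArg (fun p => p.coeff 1) h
    simp only [Matrix.charpoly_fin_two, Polynomial.map_add, Polynomial.map_sub,
      Polynomial.map_mul, Polynomial.map_pow, map_X, map_C] at this
    simpa [coeff_X_pow, coeff_C] using this
  have hd : π M.det = N.det := by
    have := congrArg (fun p => p.coeff 0) h
    simp only [Matrix.charpoly_fin_two, Polynomial.map_add, Polynomial.map_sub,
      Polynomial.map_mul, Polynomial.map_pow, map_X, map_C] at this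
    simpa [coeff_X_pow, coeff_C] using this
  rw [Matrix.charpoly_fin_two, Matrix.charpoly_fin_two]
  simp only [Polynomial.map_add, Polynomial.map_sub, Polynomial.map_mul, Polynomial.map_pow,
    map_X, map_C]
  rw [matrix_trace_pow_map π M N ht hd a, Matrix.det_pow, Matrix.det_pow, map_pow, hd]

variable {V W : Type*} [AddCommGroup V] [Module R V] [AddCommGroup W] [Module S W]
  [Module.Free R V] [Module.Finite R V] [Module.Free S W] [Module.Finite S W]

/-- In rank 2 the characteristic polynomial of a power is determined by the characteristic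
polynomial. -/
theorem charpoly_pow_map_eq (π : R →+* S) (hV : Module.finrank R V = 2)
    (hW : Module.finrank S W = 2) (f : Module.End R V) (g : Module.End S W)
    (h : f.charpoly.map π = g.charpoly) (a : ℕ) :
    (f ^ a).charpoly.map π = (g ^ a).charpoly := by
  let b := Module.finBasisOfFinrankEq R V hV
  let c := Module.finBasisOfFinrankEq S W hW
  rw [← LinearMap.charpoly_toMatrix f b, ← LinearMap.charpoly_toMatrix g c] at h
  rw [← LinearMap.charpoly_toMatrix (f ^ a) b, ← LinearMap.charpoly_toMatrix (g ^ a) c,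
    ← LinearMap.toMatrix_pow, ← LinearMap.toMatrix_pow]
  exact matrix_charpoly_pow_map π _ _ h a

end RankTwo

section Identification

variable {R S : Type*} [CommRing R] [CommRing S] [Nontrivial R] [Nontrivial S]
  {V W : Type*} [AddCommGroup V] [Module R V] [AddCommGroup W] [Module S W]
  [Module.Free R V] [Module.Finite R V] [Module.Free S W] [Module.Finite S W]

omit [Nontrivial R] [Module.Free R V] [Module.Finite R V] in
theorem sub_mem_smul_top_of_agree (ρ : GQ →* Module.End R V) (I : Ideal R)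
    (L : IntermediateField ℚ Qbar)
    (hL : ∀ σ : GQ, (∀ x ∈ L, σ x = x) → ∀ v : V, ρ σ v - v ∈ I • (⊤ : Submodule R V))
    {σ σ' : GQ} (h : ∀ x ∈ L, σ' x = σ x) (v : V) :
    ρ σ' v - ρ σ v ∈ I • (⊤ : Submodule R V) := by
  have hδ : ∀ x ∈ L, (σ⁻¹ * σ') x = x := by
    intro x hx
    rw [AlgEquiv.mul_apply, h x hx]
    exact σ.symm_apply_apply x
  have h1 := hL _ hδ v
  have h2 : ρ σ' v - ρ σ v = ρ σ (ρ (σ⁻¹ * σ') v - v) := by
    rw [map_sub, ← Module.End.mul_apply, ← map_mul, mul_inv_cancel_left]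
  rw [h2]
  have h3 : Submodule.map (ρ σ) (I • (⊤ : Submodule R V)) ≤ I • (⊤ : Submodule R V) := by
    rw [Submodule.map_smul'']
    exact Submodule.smul_mono le_rfl le_top
  exact h3 (Submodule.mem_map_of_mem h1)

/-- General identification principle. `I n`, `J n` are the neighbourhoods of `0` for which the two
actions are continuous. -/
theorem PreludeSpec.charpoly_map_eq_of_filtration (h : PreludeSpec) (π : R →+* S)
    (hV : Module.finrank R V = 2) (hW : Module.finrank S W = 2)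
    (ρ₁ : GQ →* Module.End R V) (ρ₂ : GQ →* Module.End S W)
    (I : ℕ → Ideal R) (J : ℕ → Ideal S) (hIJ : ∀ n, ∀ x ∈ I n, π x ∈ J n)
    (hJ : ∀ x : S, (∀ n, x ∈ J n) → x = 0)
    (h₁ : ∀ n, ∃ L : IntermediateField ℚ Qbar, FiniteDimensional ℚ L ∧
      ∀ σ : GQ, (∀ x ∈ L, σ x = x) → ∀ v : V, ρ₁ σ v - v ∈ I n • (⊤ : Submodule R V))
    (h₂ : ∀ n, ∃ L : IntermediateField ℚ Qbar, FiniteDimensional ℚ L ∧
      ∀ σ : GQ, (∀ x ∈ L, σ x = x) → ∀ w : W, ρ₂ σ w - w ∈ J n • (⊤ : Submodule S W))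
    (T : Finset ℕ)
    (hfrob : ∀ ℓ : ℕ, ℓ.Prime → ℓ ∉ T → ∀ A : ValuationSubring Qbar, A.LiesOverPrime ℓ →
      ∀ τ : GQ, A.IsFrobeniusAt τ ℓ → (ρ₁ τ).charpoly.map π = (ρ₂ τ).charpoly) (σ : GQ) :
    (ρ₁ σ).charpoly.map π = (ρ₂ σ).charpoly := by
  refine h.induction T (fun σ => (ρ₁ σ).charpoly.map π = (ρ₂ σ).charpoly) ?_ ?_ hfrob σ
  · intro σ hσ
    ext i
    rw [← sub_eq_zero]
    refine hJ _ fun n => ?_
    obtain ⟨L₁, hL₁, hc₁⟩ := h₁ n
    obtain ⟨L₂, hL₂, hc₂⟩ := h₂ n
    obtain ⟨σ', hag, hP⟩ := hσ (L₁ ⊔ L₂) (IntermediateField.finiteDimensional_sup L₁ L₂)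
    have e₁ := charpoly_map_mk_eq_of_sub_mem (I n) (ρ₁ σ') (ρ₁ σ)
      (sub_mem_smul_top_of_agree ρ₁ (I n) L₁ hc₁ fun x hx => hag x (le_sup_left (a := L₁) hx))
    have e₂ := charpoly_map_mk_eq_of_sub_mem (J n) (ρ₂ σ') (ρ₂ σ)
      (sub_mem_smul_top_of_agree ρ₂ (J n) L₂ hc₂ fun x hx => hag x (le_sup_right (b := L₂) hx))
    have c₁ : (ρ₁ σ').charpoly.coeff i - (ρ₁ σ).charpoly.coeff i ∈ I n := by
      have := congrArg (fun p => p.coeff i) e₁
      simpa only [coeff_map, Ideal.Quotient.eq] using this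
    have c₂ : (ρ₂ σ').charpoly.coeff i - (ρ₂ σ).charpoly.coeff i ∈ J n := by
      have := congrArg (fun p => p.coeff i) e₂
      simpa only [coeff_map, Ideal.Quotient.eq] using this
    have c₃ : π ((ρ₁ σ').charpoly.coeff i) = (ρ₂ σ').charpoly.coeff i := by
      have := congrArg (fun p => p.coeff i) hP
      simpa only [coeff_map] using this
    have c₄ := hIJ n _ c₁
    rw [map_sub, c₃] at c₄
    rw [coeff_map]
    have : π ((ρ₁ σ).charpoly.coeff i) - (ρ₂ σ).charpoly.coeff i =
        ((ρ₂ σ').charpoly.coeff i - (ρ₂ σ).charpoly.coeff i) -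
          ((ρ₂ σ').charpoly.coeff i - π ((ρ₁ σ).charpoly.coeff i)) := by ring
    rw [this]
    exact (J n).sub_mem c₂ c₄
  · intro τ a hτ
    simp only [map_pow]
    exact charpoly_pow_map_eq π hV hW _ _ hτ a

end Identification

section Prelude

variable {R S : Type} [CommRing R] [IsLocalRing R] [CommRing S] [IsLocalRing S]

theorem map_mem_maximalIdeal_pow (π : R →+* S) [IsLocalHom π] (n : ℕ) (x : R)
    (hx : x ∈ IsLocalRing.maximalIdeal R ^ n) : π x ∈ IsLocalRing.maximalIdeal S ^ n := by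
  have h1 : (IsLocalRing.maximalIdeal R).map π ≤ IsLocalRing.maximalIdeal S :=
    ((IsLocalRing.local_hom_TFAE π).out 0 2).mp ‹IsLocalHom π›
  have h2 : (IsLocalRing.maximalIdeal R ^ n).map π ≤ IsLocalRing.maximalIdeal S ^ n := by
    rw [Ideal.map_pow]
    exact Ideal.pow_right_mono h1 n
  exact h2 (Ideal.mem_map_of_mem π hx)

theorem separated_of_isHausdorff [IsHausdorff (IsLocalRing.maximalIdeal S) S] (x : S)
    (hx : ∀ n, x ∈ IsLocalRing.maximalIdeal S ^ n) : x = 0 := by
  refine IsHausdorff.haus (I := IsLocalRing.maximalIdeal S) inferInstance x fun n => ?_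
  rw [SModEq.zero, smul_eq_mul, Ideal.mul_top]
  exact hx n

theorem separated_of_isNoetherianRing [IsNoetherianRing S] (x : S)
    (hx : ∀ n, x ∈ IsLocalRing.maximalIdeal S ^ n) : x = 0 := by
  have h := Ideal.iInf_pow_eq_bot_of_isLocalRing (IsLocalRing.maximalIdeal S)
    (IsLocalRing.maximalIdeal.isMaximal S).ne_top
  have : x ∈ ⨅ n, IsLocalRing.maximalIdeal S ^ n := by
    rw [Ideal.mem_iInf]; exact hx
  rw [h] at this
  exact this

/-- Two adic Galois representations (over `R` and `S`, compared along a local homomorphism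
`π : R → S`, `S` separated) whose Frobenius charpolys agree outside `T` have the same charpolys. -/
theorem PreludeSpec.charpoly_map_eq_adic (h : PreludeSpec) (π : R →+* S) [IsLocalHom π]
    (hS : ∀ x : S, (∀ n, x ∈ IsLocalRing.maximalIdeal S ^ n) → x = 0)
    (ρ₁ : GaloisRepAdic R) (ρ₂ : GaloisRepAdic S) (T : Finset ℕ)
    (hfrob : ∀ ℓ : ℕ, ℓ.Prime → ℓ ∉ T → ∀ A : ValuationSubring Qbar, A.LiesOverPrime ℓ →
      ∀ τ : GQ, A.IsFrobeniusAt τ ℓ → (ρ₁.ρ τ).charpoly.map π = (ρ₂.ρ τ).charpoly) (σ : GQ) :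
    (ρ₁.ρ σ).charpoly.map π = (ρ₂.ρ σ).charpoly :=
  h.charpoly_map_eq_of_filtration π ρ₁.finrank_eq ρ₂.finrank_eq ρ₁.ρ ρ₂.ρ
    (fun n => IsLocalRing.maximalIdeal R ^ n) (fun n => IsLocalRing.maximalIdeal S ^ n)
    (map_mem_maximalIdeal_pow π) hS ρ₁.isAdicContinuous ρ₂.isAdicContinuous T hfrob σ

theorem residual_continuous {k : Type} [Field k] (ρ : ResidualGaloisRep k) (_n : ℕ) :
    ∃ L : IntermediateField ℚ Qbar, FiniteDimensional ℚ L ∧
      ∀ σ : GQ, (∀ x ∈ L, σ x = x) → ∀ v : ρ.V,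
        ρ.ρ σ v - v ∈ (⊥ : Ideal k) • (⊤ : Submodule k ρ.V) := by
  obtain ⟨L, hL, hρ⟩ := ρ.factorsThroughFiniteLevel
  refine ⟨L, hL, fun σ hσ v => ?_⟩
  rw [hρ σ hσ]
  simp

/-- An adic representation over `R` and a residual representation over a field `k`, compared along
a local homomorphism `R → k`. -/
theorem PreludeSpec.charpoly_map_eq_adic_residual (h : PreludeSpec) {k : Type} [Field k]
    (π : R →+* k) [IsLocalHom π] (ρ₁ : GaloisRepAdic R) (ρ₂ : ResidualGaloisRep k) (T : Finset ℕ)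
    (hfrob : ∀ ℓ : ℕ, ℓ.Prime → ℓ ∉ T → ∀ A : ValuationSubring Qbar, A.LiesOverPrime ℓ →
      ∀ τ : GQ, A.IsFrobeniusAt τ ℓ → (ρ₁.ρ τ).charpoly.map π = (ρ₂.ρ τ).charpoly) (σ : GQ) :
    (ρ₁.ρ σ).charpoly.map π = (ρ₂.ρ σ).charpoly := by
  refine h.charpoly_map_eq_of_filtration π ρ₁.finrank_eq ρ₂.finrank_eq ρ₁.ρ ρ₂.ρ
    (fun _ => IsLocalRing.maximalIdeal R ^ 1) (fun _ => ⊥) ?_ (fun x hx => hx 0)
    (fun _ => ρ₁.isAdicContinuous 1) (residual_continuous ρ₂) T hfrob σ
  intro _ x hx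
  have := map_mem_maximalIdeal_pow π 1 x hx
  rw [pow_one, IsLocalRing.maximalIdeal_eq_bot] at this
  exact this

/-- Two residual representations compared along a field homomorphism. -/
theorem PreludeSpec.charpoly_map_eq_residual (h : PreludeSpec) {k k' : Type} [Field k] [Field k']
    (π : k →+* k') (ρ₁ : ResidualGaloisRep k) (ρ₂ : ResidualGaloisRep k') (T : Finset ℕ)
    (hfrob : ∀ ℓ : ℕ, ℓ.Prime → ℓ ∉ T → ∀ A : ValuationSubring Qbar, A.LiesOverPrime ℓ →
      ∀ τ : GQ, A.IsFrobeniusAt τ ℓ → (ρ₁.ρ τ).charpoly.map π = (ρ₂.ρ τ).charpoly) (σ : GQ) :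
    (ρ₁.ρ σ).charpoly.map π = (ρ₂.ρ σ).charpoly := by
  refine h.charpoly_map_eq_of_filtration π ρ₁.finrank_eq ρ₂.finrank_eq ρ₁.ρ ρ₂.ρ
    (fun _ => ⊥) (fun _ => ⊥) ?_ (fun x hx => hx 0)
    (residual_continuous ρ₁) (residual_continuous ρ₂) T hfrob σ
  intro _ x hx
  rw [Ideal.mem_bot] at hx ⊢
  rw [hx, map_zero]

end Prelude

end Fermat.Agent.Cheb
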