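import Mathlib

set_option autoImplicit false

namespace Fermat.Agent.Cheb

open NumberField Filter Topology

variable (F : Type*) [Field F] [NumberField F]

/-- Number of integral ideals of norm `n` (the Dirichlet coefficient of `dedekindZeta`). -/
noncomputable def idealCount (n : ℕ) : ℕ := Nat.card {I : Ideal (𝓞 F) // Ideal.absNorm I = n}

theorem dedekindZeta_eq_LSeries (s : ℂ) :
    dedekindZeta F s = LSeries (fun n => ((idealCount F n : ℝ) : ℂ)) s := by
  unfold dedekindZeta idealCount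
  simp

theorem tendsto_sum_idealCount_div :
    Tendsto (fun n : ℕ => (∑ k ∈ Finset.Icc 1 n, (idealCount F k : ℝ)) / (n : ℝ)) atTop
      (𝓝 (dedekindZeta_residue F)) := by
  refine ((Ideal.tendsto_norm_le_div_atTop₀ F).comp tendsto_natCast_atTop_atTop).congr fun n ↦ ?_
  simp only [Function.comp_apply, Nat.cast_le, ← Nat.cast_sum, idealCount]
  congr
  rw [← add_left_inj 1, ← Ideal.card_norm_le_eq_card_norm_le_add_one,
    show Finset.Icc 1 n = Finset.Ioc 0 n from Finset.Icc_succ_left_eq_Ioc _ _,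
    show 1 = Nat.card {I : Ideal (𝓞 F) // Ideal.absNorm I = 0} by simp [Ideal.absNorm_eq_zero_iff],
    Finset.sum_Ioc_add_eq_sum_Icc (n.zero_le),
    ← Finset.card_preimage_eq_sum_card_image_eq (fun k _ ↦ Ideal.finite_setOfPred_absNorm_eq k)]
  simp [Set.coe_eq_subtype]

theorem lseriesSummable_idealCount {s : ℝ} (hs : 1 < s) :
    LSeriesSummable (fun n => ((idealCount F n : ℝ) : ℂ)) s := by
  refine LSeriesSummable_of_sum_norm_bigO_and_nonneg (r := 1) ?_ (fun _ => Nat.cast_nonneg _)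
    zero_le_one (by simpa using hs)
  exact Asymptotics.isBigO_atTop_natCast_rpow_of_tendsto_div_rpow
    (by simpa using tendsto_sum_idealCount_div F)

theorem term_idealCount_eq {s : ℝ} (hs : 1 < s) (n : ℕ) :
    LSeries.term (fun n => ((idealCount F n : ℝ) : ℂ)) s n =
      (((idealCount F n : ℝ) * (n : ℝ) ^ (-s) : ℝ) : ℂ) := by
  rcases eq_or_ne n 0 with rfl | hn
  · have : -s ≠ 0 := by linarith
    simp [Real.zero_rpow this]
  · rw [LSeries.term_of_ne_zero hn, Real.rpow_neg (Nat.cast_nonneg n), div_eq_mul_inv]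
    push_cast
    rw [Complex.ofReal_cpow (Nat.cast_nonneg n)]
    simp

theorem summable_idealCount_mul_rpow {s : ℝ} (hs : 1 < s) :
    Summable (fun n : ℕ => (idealCount F n : ℝ) * (n : ℝ) ^ (-s)) := by
  have h := lseriesSummable_idealCount F hs
  unfold LSeriesSummable at h
  rw [funext (term_idealCount_eq F hs)] at h
  exact Complex.summable_ofReal.mp h

instance finite_absNorm_eq (n : ℕ) : Finite {I : Ideal (𝓞 F) // Ideal.absNorm I = n} :=
  Ideal.finite_setOfPred_absNorm_eq n

theorem tsum_fiber_absNorm (s : ℝ) (n : ℕ) :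
    ∑' x : {I : Ideal (𝓞 F) // Ideal.absNorm I = n}, (Ideal.absNorm x.1 : ℝ) ^ (-s) =
      (idealCount F n : ℝ) * (n : ℝ) ^ (-s) := by
  have := Fintype.ofFinite {I : Ideal (𝓞 F) // Ideal.absNorm I = n}
  rw [tsum_fintype, Finset.sum_congr rfl (fun x _ => by rw [x.2]), Finset.sum_const,
    Finset.card_univ, nsmul_eq_mul, idealCount, Nat.card_eq_fintype_card]

theorem summable_absNorm_rpow {s : ℝ} (hs : 1 < s) :
    Summable (fun I : Ideal (𝓞 F) => (Ideal.absNorm I : ℝ) ^ (-s)) := by
  rw [← (Equiv.sigmaFiberEquiv (fun I : Ideal (𝓞 F) => Ideal.absNorm I)).summable_iff,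
    summable_sigma_of_nonneg (fun _ => by simp only [Function.comp]; positivity)]
  refine ⟨fun n => Summable.of_finite, ?_⟩
  refine (summable_idealCount_mul_rpow F hs).congr (fun n => ?_)
  exact (tsum_fiber_absNorm F s n).symm

/-- The Dedekind zeta function at a real argument, as a sum over all ideals
(the zero ideal contributes `0 ^ (-s) = 0`). -/
noncomputable def zetaR (s : ℝ) : ℝ := ∑' I : Ideal (𝓞 F), (Ideal.absNorm I : ℝ) ^ (-s)

theorem zetaR_eq_tsum_idealCount {s : ℝ} (hs : 1 < s) :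
    zetaR F s = ∑' n : ℕ, (idealCount F n : ℝ) * (n : ℝ) ^ (-s) := by
  have h := summable_absNorm_rpow F hs
  rw [← (Equiv.sigmaFiberEquiv (fun I : Ideal (𝓞 F) => Ideal.absNorm I)).summable_iff] at h
  rw [zetaR, ← (Equiv.sigmaFiberEquiv (fun I : Ideal (𝓞 F) => Ideal.absNorm I)).tsum_eq]
  refine (h.tsum_sigma).trans ?_
  exact tsum_congr (fun n => tsum_fiber_absNorm F s n)

theorem dedekindZeta_eq_zetaR {s : ℝ} (hs : 1 < s) : dedekindZeta F s = (zetaR F s : ℂ) := by
  rw [dedekindZeta_eq_LSeries, LSeries, funext (term_idealCount_eq F hs), ← Complex.ofReal_tsum,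
    zetaR_eq_tsum_idealCount F hs]

theorem tendsto_sub_one_mul_zetaR :
    Tendsto (fun s : ℝ => (s - 1) * zetaR F s) (𝓝[>] 1) (𝓝 (dedekindZeta_residue F)) := by
  have h := tendsto_sub_one_mul_dedekindZeta_nhdsGT F
  have h2 : Tendsto (fun s : ℝ => (((s - 1) * zetaR F s : ℝ) : ℂ)) (𝓝[>] 1)
      (𝓝 (dedekindZeta_residue F : ℂ)) := by
    refine h.congr' ?_
    filter_upwards [self_mem_nhdsWithin] with s hs
    rw [dedekindZeta_eq_zetaR F hs]
    push_cast
    ring
  exact Filter.tendsto_ofReal_iff.mp h2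

end Fermat.Agent.Cheb
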