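import Mathlib
import Fermat.Agent.Cheb.ZetaReal
set_option autoImplicit false
open NumberField Ideal MulAction Pointwise

namespace Fermat.Agent.Cheb

variable (L : Type*) [Field L] [NumberField L] [IsGalois ℚ L] (U : Subgroup Gal(L/ℚ))

abbrev fixF : IntermediateField ℚ L := FixedPoints.intermediateField U

instance isGaloisGroup_fixF : IsGaloisGroup U (𝓞 (fixF L U)) (𝓞 L) :=
  IsGaloisGroup.of_isFractionRing U (𝓞 (fixF L U)) (𝓞 L) (fixF L U) L

theorem le_iff_card_subgroupOf {G : Type*} [Group G] [Finite G] (D U : Subgroup G) :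
    D ≤ U ↔ Nat.card (D.subgroupOf U) = Nat.card D := by
  constructor
  · intro h
    exact Nat.card_congr (Subgroup.subgroupOfEquivOfLe h).toEquiv
  · intro h
    have h1 : Nat.card (D.subgroupOf U) = Nat.card (D ⊓ U : Subgroup G) := by
      rw [← Subgroup.inf_subgroupOf_right]
      exact Nat.card_congr (Subgroup.subgroupOfEquivOfLe inf_le_right).toEquiv
    have h2 : (D ⊓ U : Subgroup G) = D :=
      Subgroup.eq_of_le_of_card_ge inf_le_left (by rw [← h1, h])
    exact h2 ▸ inf_le_right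

theorem isPrime_span_natCast {l : ℕ} (hl : l.Prime) : (span {(l : ℤ)}).IsPrime := by
  rw [span_singleton_prime (by exact_mod_cast hl.ne_zero)]
  exact Nat.prime_iff_prime_int.mp hl

variable {L}

theorem card_stabilizer_top {l : ℕ} (hl : l.Prime) (Q : Ideal (𝓞 L)) [Q.IsPrime]
    [Q.LiesOver (span {(l : ℤ)})] :
    Nat.card (stabilizer Gal(L/ℚ) Q) = Q.ramificationIdx ℤ * Q.inertiaDeg ℤ := by
  have := isPrime_span_natCast hl
  rw [Ideal.card_stabilizer_eq (span {(l : ℤ)}) Q,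
    ramificationIdxIn_eq_ramificationIdx (span {(l : ℤ)}) Q Gal(L/ℚ),
    inertiaDegIn_eq_inertiaDeg (span {(l : ℤ)}) Q Gal(L/ℚ)]

theorem card_stabilizer_sub (Q : Ideal (𝓞 L)) [Q.IsPrime] :
    Nat.card ((stabilizer Gal(L/ℚ) Q).subgroupOf U) =
      Q.ramificationIdx (𝓞 (fixF L U)) * Q.inertiaDeg (𝓞 (fixF L U)) := by
  have : (Q.under (𝓞 (fixF L U))).IsPrime := inferInstance
  have h := Ideal.card_stabilizer_eq (G := U) (Q.under (𝓞 (fixF L U))) Q
  rw [ramificationIdxIn_eq_ramificationIdx (Q.under (𝓞 (fixF L U))) Q U,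
    inertiaDegIn_eq_inertiaDeg (Q.under (𝓞 (fixF L U))) Q U] at h
  rw [← h]
  rfl

omit [IsGalois ℚ L] in
theorem ramificationIdx_sub_eq_one (Q : Ideal (𝓞 L)) [Q.IsPrime]
    (hunr : Q.ramificationIdx ℤ = 1) : Q.ramificationIdx (𝓞 (fixF L U)) = 1 := by
  have h := ramificationIdx_tower (R := ℤ) (Q.under (𝓞 (fixF L U))) Q
  rw [hunr] at h
  exact Nat.eq_one_of_mul_eq_one_left h.symm

theorem stabilizer_le_iff {l : ℕ} (hl : l.Prime) (Q : Ideal (𝓞 L)) [Q.IsPrime]
    [Q.LiesOver (span {(l : ℤ)})] (hunr : Q.ramificationIdx ℤ = 1) :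
    stabilizer Gal(L/ℚ) Q ≤ U ↔ (Q.under (𝓞 (fixF L U))).inertiaDeg ℤ = 1 := by
  rw [le_iff_card_subgroupOf, card_stabilizer_sub, card_stabilizer_top hl, hunr,
    ramificationIdx_sub_eq_one U Q hunr, one_mul, one_mul,
    inertiaDeg_tower (R := ℤ) (Q.under (𝓞 (fixF L U))) Q]
  have hpos : 0 < Q.inertiaDeg (𝓞 (fixF L U)) := inertiaDeg_pos Q _
  constructor
  · intro h
    exact Nat.eq_of_mul_eq_mul_right hpos (by rw [one_mul]; exact h.symm)
  · intro h
    rw [h, one_mul]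


theorem liesOver_of_absNorm_eq {F : Type*} [Field F] [NumberField F] {l : ℕ} (hl : l.Prime)
    (I : Ideal (𝓞 F)) (hI : absNorm I = l) : I.IsPrime ∧ I.LiesOver (span {(l : ℤ)}) := by
  have hp : I.IsPrime := isPrime_of_irreducible_absNorm (hI ▸ hl)
  refine ⟨hp, ⟨?_⟩⟩
  have hmem : (l : 𝓞 F) ∈ I := hI ▸ absNorm_mem I
  have hmax : (span {(l : ℤ)}).IsMaximal :=
    (isPrime_span_natCast hl).isMaximal (by simpa using hl.ne_zero)
  refine hmax.eq_of_le (hp.under ℤ).ne_top ?_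
  rw [span_singleton_le_iff_mem, mem_comap]
  simpa using hmem

theorem inertiaDeg_eq_one_iff {F : Type*} [Field F] [NumberField F] {l : ℕ} (hl : l.Prime)
    (I : Ideal (𝓞 F)) [I.IsPrime] [I.LiesOver (span {(l : ℤ)})] :
    I.inertiaDeg ℤ = 1 ↔ absNorm I = l := by
  rw [← pow_inertiaDeg l I]
  constructor
  · intro h; rw [h, pow_one]
  · intro h
    exact Nat.pow_right_injective hl.two_le (by simpa using h)


theorem card_mul_idealCount {l : ℕ} (hl : l.Prime)
    (hunr : (span {(l : ℤ)}).ramificationIdxIn (𝓞 L) = 1) :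
    Nat.card U * idealCount (fixF L U) l =
      (span {(l : ℤ)}).inertiaDegIn (𝓞 L) *
        Nat.card {Q : primesOver (span {(l : ℤ)}) (𝓞 L) // stabilizer Gal(L/ℚ) Q.1 ≤ U} := by
  classical
  have hpl := isPrime_span_natCast hl
  have hunrQ : ∀ (Q : Ideal (𝓞 L)) [Q.IsPrime] [Q.LiesOver (span {(l : ℤ)})],
      Q.ramificationIdx ℤ = 1 := fun Q _ _ => by
    rw [← ramificationIdxIn_eq_ramificationIdx (span {(l : ℤ)}) Q Gal(L/ℚ), hunr]
  have hfinX : Finite (primesOver (span {(l : ℤ)}) (𝓞 L)) :=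
    Algebra.QuasiFinite.finite_primesOver _
  have hfinY : Finite {I : Ideal (𝓞 (fixF L U)) // absNorm I = l} :=
    Ideal.finite_setOfPred_absNorm_eq l
  have := Fintype.ofFinite {I : Ideal (𝓞 (fixF L U)) // absNorm I = l}
  let π : {Q : primesOver (span {(l : ℤ)}) (𝓞 L) // stabilizer Gal(L/ℚ) Q.1 ≤ U} →
      {I : Ideal (𝓞 (fixF L U)) // absNorm I = l} := fun Q =>
    ⟨Q.1.1.under (𝓞 (fixF L U)), by
      have h1 := Q.1.2.1
      have h2 := Q.1.2.2
      have h3 : (Q.1.1.under (𝓞 (fixF L U))).LiesOver (span {(l : ℤ)}) :=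
        LiesOver.tower_bot Q.1.1 _ _
      rw [← inertiaDeg_eq_one_iff hl, ← stabilizer_le_iff U hl Q.1.1 (hunrQ Q.1.1)]
      exact Q.2⟩
  have hfib : ∀ y : {I : Ideal (𝓞 (fixF L U)) // absNorm I = l},
      (span {(l : ℤ)}).inertiaDegIn (𝓞 L) * Nat.card {x // π x = y} = Nat.card U := by
    intro y
    obtain ⟨hy1, hy2⟩ := liesOver_of_absNorm_eq hl y.1 y.2
    have e : {x // π x = y} ≃ primesOver y.1 (𝓞 L) :=
      { toFun := fun x => ⟨x.1.1.1, x.1.1.2.1, ⟨by
          have := congrArg Subtype.val x.2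
          exact this.symm⟩⟩
        invFun := fun Q => by
          have h1 := Q.2.1
          have h2 := Q.2.2
          have h3 : Q.1.LiesOver (span {(l : ℤ)}) := LiesOver.trans Q.1 y.1 _
          refine ⟨⟨⟨Q.1, h1, h3⟩, ?_⟩, ?_⟩
          · rw [stabilizer_le_iff U hl Q.1 (hunrQ Q.1), ← over_def Q.1 y.1,
              inertiaDeg_eq_one_iff hl]
            exact y.2
          · exact Subtype.ext (over_def Q.1 y.1).symm
        left_inv := fun x => rfl
        right_inv := fun Q => rfl }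
    rw [Nat.card_congr e, Nat.card_coe_set_eq]
    obtain ⟨Q, hQ1, hQ2⟩ := (inferInstance : Nonempty (primesOver y.1 (𝓞 L)))
    have h3 : Q.LiesOver (span {(l : ℤ)}) := LiesOver.trans Q y.1 _
    have key := ncard_primesOver_mul_ramificationIdxIn_mul_inertiaDegIn y.1 (𝓞 L) U
    have hy : Q.under (𝓞 (fixF L U)) = y.1 := (over_def Q y.1).symm
    rw [ramificationIdxIn_eq_ramificationIdx y.1 Q U, inertiaDegIn_eq_inertiaDeg y.1 Q U,
      ramificationIdx_sub_eq_one U Q (hunrQ Q), one_mul] at key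
    rw [inertiaDegIn_eq_inertiaDeg (span {(l : ℤ)}) Q Gal(L/ℚ),
      inertiaDeg_tower (R := ℤ) y.1 Q, (inertiaDeg_eq_one_iff hl y.1).mpr y.2, one_mul, mul_comm]
    exact key
  have hsum : Nat.card {Q : primesOver (span {(l : ℤ)}) (𝓞 L) // stabilizer Gal(L/ℚ) Q.1 ≤ U} =
      ∑ y, Nat.card {x // π x = y} := by
    rw [← Nat.card_sigma]
    exact Nat.card_congr (Equiv.sigmaFiberEquiv π).symm
  rw [hsum, Finset.mul_sum, Finset.sum_congr rfl (fun y _ => hfib y), Finset.sum_const,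
    Finset.card_univ, smul_eq_mul, mul_comm, idealCount, Nat.card_eq_fintype_card]

end Fermat.Agent.Cheb
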