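import Fermat.Agent.Cheb.Toolkit
import Fermat.Prelude.Def_GaloisRep_LocalConditions

/-!
# Frobenius lifts and roots of unity; determinant = cyclotomic character
-/

set_option autoImplicit false

namespace Fermat.Agent.Cheb

open Polynomial Fermat.Agent.S54 Fermat.Agent.Bridge

local notation "Qbar" => AlgebraicClosure ℚ
local notation "GQ" => (AlgebraicClosure ℚ ≃ₐ[ℚ] AlgebraicClosure ℚ)
local notation "Zbar" => integralClosure ℤ (AlgebraicClosure ℚ)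

section Roots

variable {B : Type*} [CommRing B] [IsDomain B] (Q : Ideal B)

theorem eq_one_of_pow_eq_one_of_sub_mem {m : ℕ} (hm : (m : B) ∉ Q) {z : B} (hz : z ^ m = 1)
    (h1 : z - 1 ∈ Q) : z = 1 := by
  by_contra hne
  have h2 : (z - 1) * ∑ i ∈ Finset.range m, z ^ i = 0 := by
    rw [mul_geom_sum, hz, sub_self]
  have h3 : ∑ i ∈ Finset.range m, z ^ i = 0 :=
    (mul_eq_zero.mp h2).resolve_left (sub_ne_zero.mpr hne)
  apply hm
  have h4 : Ideal.Quotient.mk Q z = 1 := by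
    rw [← map_one (Ideal.Quotient.mk Q), Ideal.Quotient.eq]
    exact h1
  have h5 := congrArg (Ideal.Quotient.mk Q) h3
  rw [map_sum] at h5
  simp only [map_pow, h4, one_pow, Finset.sum_const, Finset.card_range, map_zero,
    nsmul_eq_mul, mul_one] at h5
  rw [← Ideal.Quotient.eq_zero_iff_mem, map_natCast]
  exact h5

theorem eq_of_pow_eq_one_of_sub_mem {m : ℕ} (hm : (m : B) ∉ Q) {x y : B} (hx : x ^ m = 1)
    (hy : y ^ m = 1) (h : x - y ∈ Q) : x = y := by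
  have hm0 : m ≠ 0 := by
    rintro rfl
    exact hm (by simp)
  obtain ⟨k, rfl⟩ := Nat.exists_eq_succ_of_ne_zero hm0
  have hyk : y * y ^ k = 1 := by rw [← pow_succ', hy]
  have hz : (x * y ^ k) ^ (k + 1) = 1 := by
    rw [mul_pow, hx, one_mul, ← pow_mul, mul_comm, pow_mul, hy, one_pow]
  have h1 : x * y ^ k - 1 ∈ Q := by
    have : x * y ^ k - 1 = (x - y) * y ^ k := by rw [sub_mul, hyk]
    rw [this]
    exact Q.mul_mem_right _ h
  have h2 := eq_one_of_pow_eq_one_of_sub_mem Q hm hz h1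
  have h3 : y ^ k ≠ 0 := by
    intro h0
    rw [h0, mul_zero] at hyk
    exact zero_ne_one hyk
  exact mul_right_cancel₀ h3 (h2.trans hyk.symm)

end Roots

section Places

variable {ℓ m : ℕ} {A : ValuationSubring Qbar}

theorem natCast_notMem_centre (hℓ : ℓ.Prime) (hA : A.LiesOverPrime ℓ) (hm : ¬ ℓ ∣ m) :
    (m : Zbar) ∉ centre A := by
  intro h3
  have h4 : (ℓ : Zbar) ∈ centre A := natCast_mem_centre hA
  have hcop : Nat.Coprime m ℓ := ((Nat.Prime.coprime_iff_not_dvd hℓ).mpr hm).symm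
  obtain ⟨a, b, hab⟩ := Nat.isCoprime_iff_coprime.mpr hcop
  have h7 : (1 : Zbar) = (a : Zbar) * (m : Zbar) + (b : Zbar) * (ℓ : Zbar) := by
    have := congrArg (Int.cast : ℤ → Zbar) hab
    push_cast at this
    exact this.symm
  have h5 : (1 : Zbar) ∈ centre A := by
    rw [h7]
    exact add_mem (Ideal.mul_mem_left _ _ h3) (Ideal.mul_mem_left _ _ h4)
  exact (centre_isPrime A).ne_top ((Ideal.eq_top_iff_one _).mpr h5)

theorem isIntegral_of_pow_eq_one {μ : Qbar} (hm0 : m ≠ 0) (hμ : μ ^ m = 1) : IsIntegral ℤ μ :=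
  ⟨X ^ m - 1, monic_X_pow_sub_C 1 hm0, by simp [hμ]⟩

/-- A Frobenius lift at `ℓ` raises roots of unity of order prime to `ℓ` to the `ℓ`-th power. -/
theorem apply_rootOfUnity_of_isFrobeniusAt (hℓ : ℓ.Prime) (hA : A.LiesOverPrime ℓ)
    (hm : ¬ ℓ ∣ m) {τ : GQ} (hτ : A.IsFrobeniusAt τ ℓ) {μ : Qbar} (hμ : μ ^ m = 1) :
    τ μ = μ ^ ℓ := by
  have hm0 : m ≠ 0 := by rintro rfl; exact hm (dvd_zero _)
  let z : Zbar := ⟨μ, isIntegral_of_pow_eq_one hm0 hμ⟩
  have hz : z ^ m = 1 := Subtype.ext hμ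
  have h1 := sub_pow_mem_centre_of_isFrobeniusAt hτ z
  have h2 : (τ • z) ^ m = 1 := by rw [← smul_pow', hz, smul_one]
  have h3 : (z ^ ℓ) ^ m = 1 := by rw [← pow_mul, mul_comm, pow_mul, hz, one_pow]
  have h4 := eq_of_pow_eq_one_of_sub_mem (centre A) (natCast_notMem_centre hℓ hA hm) h2 h3 h1
  exact congrArg Subtype.val h4

/-- Inertia at `ℓ` fixes roots of unity of order prime to `ℓ`. -/
theorem apply_rootOfUnity_of_mem_inertia (hℓ : ℓ.Prime) (hA : A.LiesOverPrime ℓ)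
    (hm : ¬ ℓ ∣ m) {s : GQ} (hs : s ∈ A.inertiaSubgroupIn ℚ) {μ : Qbar} (hμ : μ ^ m = 1) :
    s μ = μ := by
  have hm0 : m ≠ 0 := by rintro rfl; exact hm (dvd_zero _)
  let z : Zbar := ⟨μ, isIntegral_of_pow_eq_one hm0 hμ⟩
  have hz : z ^ m = 1 := Subtype.ext hμ
  have h1 := sub_mem_centre_of_mem_inertia hs z
  have h2 : (s • z) ^ m = 1 := by rw [← smul_pow', hz, smul_one]
  have h4 := eq_of_pow_eq_one_of_sub_mem (centre A) (natCast_notMem_centre hℓ hA hm) h2 hz h1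
  exact congrArg Subtype.val h4

theorem pow_apply_rootOfUnity_of_isFrobeniusAt (hℓ : ℓ.Prime) (hA : A.LiesOverPrime ℓ)
    (hm : ¬ ℓ ∣ m) {τ : GQ} (hτ : A.IsFrobeniusAt τ ℓ) {μ : Qbar} (hμ : μ ^ m = 1) (c : ℕ) :
    (τ ^ c) μ = μ ^ (ℓ ^ c) := by
  induction c with
  | zero => simp
  | succ c ih =>
    rw [pow_succ', AlgEquiv.mul_apply, ih, map_pow,
      apply_rootOfUnity_of_isFrobeniusAt hℓ hA hm hτ hμ, ← pow_mul, ← pow_succ']

end Places

section Det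

variable {R : Type} [CommRing R] [IsLocalRing R]

theorem mem_of_forall_mem_sup_pow [IsNoetherianRing R] (I : Ideal R) (x : R)
    (hx : ∀ k : ℕ, x ∈ I ⊔ IsLocalRing.maximalIdeal R ^ k) : x ∈ I := by
  have h := Ideal.iInf_pow_smul_eq_bot_of_isLocalRing (M := R ⧸ I) (IsLocalRing.maximalIdeal R)
    (IsLocalRing.maximalIdeal.isMaximal R).ne_top
  have h1 : (Ideal.Quotient.mk I x : R ⧸ I) ∈
      (⨅ i : ℕ, IsLocalRing.maximalIdeal R ^ i • ⊤ : Submodule R (R ⧸ I)) := by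
    rw [Submodule.mem_iInf]
    intro k
    obtain ⟨i, hi, y, hy, rfl⟩ := Submodule.mem_sup.mp (hx k)
    have : (Ideal.Quotient.mk I (i + y) : R ⧸ I) = y • (1 : R ⧸ I) := by
      rw [map_add, Ideal.Quotient.eq_zero_iff_mem.mpr hi, zero_add, Algebra.smul_def, mul_one]
      rfl
    rw [this]
    exact Submodule.smul_mem_smul hy Submodule.mem_top
  rw [h, Submodule.mem_bot, Ideal.Quotient.eq_zero_iff_mem] at h1
  exact h1

theorem det_sub_det_mem (ρ : GaloisRepAdic R) (I : Ideal R) (f g : Module.End R ρ.V)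
    (hfg : ∀ v, f v - g v ∈ I • (⊤ : Submodule R ρ.V)) :
    LinearMap.det f - LinearMap.det g ∈ I := by
  have e := charpoly_map_mk_eq_of_sub_mem I f g hfg
  have c : f.charpoly.coeff 0 - g.charpoly.coeff 0 ∈ I := by
    have := congrArg (fun p => p.coeff 0) e
    simpa only [coeff_map, Ideal.Quotient.eq] using this
  rw [LinearMap.det_eq_sign_charpoly_coeff, LinearMap.det_eq_sign_charpoly_coeff, ρ.finrank_eq]
  simpa using c

/-- If `det ρ(Frob_ℓ) = ℓ` for all Frobenius lifts outside a finite set of primes, then the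
determinant of `ρ` is the `p`-adic cyclotomic character. -/
theorem detIsCyclotomic_of_frobenius [IsNoetherianRing R] (ρ : GaloisRepAdic R) {p : ℕ}
    (hp : p.Prime) (hpR : (p : R) ∈ IsLocalRing.maximalIdeal R) (T : Finset ℕ)
    (hfrob : ∀ ℓ : ℕ, ℓ.Prime → ℓ ∉ T → ∀ A : ValuationSubring Qbar, A.LiesOverPrime ℓ →
      ∀ τ : GQ, A.IsFrobeniusAt τ ℓ → LinearMap.det (ρ.ρ τ) = (ℓ : R)) :
    ρ.DetIsCyclotomic p := by
  refine ⟨hpR, fun n σ a hσ => ?_⟩
  refine mem_of_forall_mem_sup_pow _ _ fun k => ?_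
  obtain ⟨L₁, hL₁, hc⟩ := ρ.isAdicContinuous k
  have : NeZero (p ^ n) := ⟨pow_ne_zero _ hp.ne_zero⟩
  obtain ⟨ζ, hζ⟩ := HasEnoughRootsOfUnity.exists_primitiveRoot Qbar (p ^ n)
  have hL₂ : FiniteDimensional ℚ (IntermediateField.adjoin ℚ {ζ}) :=
    IntermediateField.adjoin.finiteDimensional (Algebra.IsIntegral.isIntegral _)
  have hL : FiniteDimensional ℚ ↥(L₁ ⊔ IntermediateField.adjoin ℚ {ζ}) :=
    IntermediateField.finiteDimensional_sup L₁ _
  obtain ⟨ℓ, A, τ, c, -, hℓ, hT, hA, hτ, -, h1, -⟩ :=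
    exists_frobenius_generator (L₁ ⊔ IntermediateField.adjoin ℚ {ζ}) σ (insert p T)
  rw [Finset.mem_insert, not_or] at hT
  have hℓp : ¬ ℓ ∣ p ^ n := fun h =>
    hT.1 ((Nat.prime_dvd_prime_iff_eq hℓ hp).mp (hℓ.dvd_of_dvd_pow h))
  -- the determinant
  have d1 : LinearMap.det (ρ.ρ (τ ^ c)) - LinearMap.det (ρ.ρ σ) ∈
      IsLocalRing.maximalIdeal R ^ k :=
    det_sub_det_mem ρ _ _ _ (sub_mem_smul_top_of_agree ρ.ρ _ L₁ hc
      fun x hx => h1 x (le_sup_left (a := L₁) hx))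
  have d2 : LinearMap.det (ρ.ρ (τ ^ c)) = ((ℓ ^ c : ℕ) : R) := by
    rw [map_pow, map_pow, hfrob ℓ hℓ hT.2 A hA τ hτ, Nat.cast_pow]
  -- the cyclotomic character
  have z1 : ζ ^ (ℓ ^ c) = ζ ^ a := by
    rw [← pow_apply_rootOfUnity_of_isFrobeniusAt hℓ hA hℓp hτ hζ.pow_eq_one c,
      h1 ζ (le_sup_right (b := IntermediateField.adjoin ℚ {ζ})
        (IntermediateField.mem_adjoin_simple_self ℚ ζ)), hσ ζ hζ.pow_eq_one]
  have hfin : IsOfFinOrder ζ :=
    isOfFinOrder_iff_pow_eq_one.mpr ⟨p ^ n, pow_pos hp.pos n, hζ.pow_eq_one⟩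
  have z2 : ℓ ^ c ≡ a [MOD p ^ n] := by
    have := hfin.pow_eq_pow_iff_modEq.mp z1
    rwa [← hζ.eq_orderOf] at this
  have z3 : ((ℓ ^ c : ℕ) : R) - (a : R) ∈ Ideal.span {((p ^ n : ℕ) : R)} := by
    have h3 := (Nat.modEq_iff_dvd.mp z2.symm)
    obtain ⟨t, ht⟩ := h3
    rw [Ideal.mem_span_singleton]
    refine ⟨(t : R), ?_⟩
    have := congrArg (Int.cast : ℤ → R) ht
    push_cast at this ⊢
    exact this
  have : LinearMap.det (ρ.ρ σ) - (a : R) =
      (((ℓ ^ c : ℕ) : R) - (a : R)) + -(LinearMap.det (ρ.ρ (τ ^ c)) - LinearMap.det (ρ.ρ σ)) := by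
    rw [d2]; ring
  rw [this]
  exact Submodule.add_mem_sup z3 (neg_mem d1)

end Det

end Fermat.Agent.Cheb
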