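import Fermat.Agent.Cheb.ZetaReal

set_option autoImplicit false

namespace Fermat.Agent.Cheb

open NumberField Filter Topology IsDedekindDomain

variable (F : Type*) [Field F] [NumberField F]

/-- `N(I)^(-s)`. -/
noncomputable def nrm (s : ℝ) (I : Ideal (𝓞 F)) : ℝ := (Ideal.absNorm I : ℝ) ^ (-s)

theorem nrm_nonneg (s : ℝ) (I : Ideal (𝓞 F)) : 0 ≤ nrm F s I := by
  unfold nrm; positivity

theorem nrm_mul (s : ℝ) (I J : Ideal (𝓞 F)) : nrm F s (I * J) = nrm F s I * nrm F s J := by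
  unfold nrm
  rw [map_mul, Nat.cast_mul, Real.mul_rpow (Nat.cast_nonneg _) (Nat.cast_nonneg _)]

theorem nrm_top (s : ℝ) : nrm F s ⊤ = 1 := by
  unfold nrm; simp

theorem summable_nrm {s : ℝ} (hs : 1 < s) : Summable (nrm F s) := summable_absNorm_rpow F hs

theorem zetaR_eq_tsum_nrm (s : ℝ) : zetaR F s = ∑' I, nrm F s I := rfl

open Classical in
/-- The term of the zeta series sieved by a finite set of primes. -/
noncomputable def sv (s : ℝ) (S : Finset (HeightOneSpectrum (𝓞 F))) (I : Ideal (𝓞 F)) : ℝ :=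
  if ∀ 𝔮 ∈ S, ¬ I ≤ 𝔮.asIdeal then nrm F s I else 0

theorem sv_nonneg (s : ℝ) (S : Finset (HeightOneSpectrum (𝓞 F))) (I : Ideal (𝓞 F)) :
    0 ≤ sv F s S I := by
  unfold sv; split_ifs
  · exact nrm_nonneg F s I
  · exact le_rfl

theorem sv_le (s : ℝ) (S : Finset (HeightOneSpectrum (𝓞 F))) (I : Ideal (𝓞 F)) :
    sv F s S I ≤ nrm F s I := by
  unfold sv; split_ifs
  · exact le_rfl
  · exact nrm_nonneg F s I

theorem summable_sv {s : ℝ} (hs : 1 < s) (S : Finset (HeightOneSpectrum (𝓞 F))) :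
    Summable (sv F s S) :=
  Summable.of_nonneg_of_le (sv_nonneg F s S) (sv_le F s S) (summable_nrm F hs)

theorem sv_empty (s : ℝ) : sv F s ∅ = nrm F s := by
  funext I; simp [sv]

theorem sv_top (s : ℝ) (S : Finset (HeightOneSpectrum (𝓞 F))) : sv F s S ⊤ = 1 := by
  unfold sv
  rw [if_pos, nrm_top]
  intro 𝔮 _ h
  exact 𝔮.isPrime.ne_top (top_le_iff.mp h)

theorem sv_mul (s : ℝ) (S : Finset (HeightOneSpectrum (𝓞 F))) (𝔭 : HeightOneSpectrum (𝓞 F))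
    (h𝔭 : 𝔭 ∉ S) (J : Ideal (𝓞 F)) :
    sv F s S (𝔭.asIdeal * J) = nrm F s 𝔭.asIdeal * sv F s S J := by
  have key : (∀ 𝔮 ∈ S, ¬ 𝔭.asIdeal * J ≤ 𝔮.asIdeal) ↔ (∀ 𝔮 ∈ S, ¬ J ≤ 𝔮.asIdeal) := by
    refine forall₂_congr fun 𝔮 h𝔮 => ?_
    rw [𝔮.isPrime.mul_le, not_or]
    refine ⟨fun h => h.2, fun h => ⟨fun h' => ?_, h⟩⟩
    have : 𝔭 = 𝔮 := HeightOneSpectrum.ext (𝔭.isMaximal.eq_of_le 𝔮.isPrime.ne_top h')
    exact h𝔭 (this ▸ h𝔮)
  unfold sv
  by_cases h : ∀ 𝔮 ∈ S, ¬ J ≤ 𝔮.asIdeal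
  · rw [if_pos h, if_pos (key.mpr h), nrm_mul]
  · rw [if_neg h, if_neg (fun h' => h (key.mp h')), mul_zero]

open Classical in
theorem sv_insert (s : ℝ) (S : Finset (HeightOneSpectrum (𝓞 F))) (𝔭 : HeightOneSpectrum (𝓞 F))
    (I : Ideal (𝓞 F)) :
    sv F s (insert 𝔭 S) I = sv F s S I - (if I ≤ 𝔭.asIdeal then sv F s S I else 0) := by
  unfold sv
  by_cases h1 : I ≤ 𝔭.asIdeal
  · simp [h1]
  · simp [h1]

open Classical in
theorem tsum_sv_dvd {s : ℝ} (S : Finset (HeightOneSpectrum (𝓞 F)))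
    (𝔭 : HeightOneSpectrum (𝓞 F)) (h𝔭 : 𝔭 ∉ S) :
    ∑' I, (if I ≤ 𝔭.asIdeal then sv F s S I else 0) = nrm F s 𝔭.asIdeal * ∑' I, sv F s S I := by
  have hinj : Function.Injective (fun J : Ideal (𝓞 F) => 𝔭.asIdeal * J) :=
    mul_right_injective₀ 𝔭.ne_bot
  rw [← hinj.tsum_eq (f := fun I => if I ≤ 𝔭.asIdeal then sv F s S I else 0), ← tsum_mul_left]
  · refine tsum_congr fun J => ?_
    show (if 𝔭.asIdeal * J ≤ 𝔭.asIdeal then sv F s S (𝔭.asIdeal * J) else 0) = _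
    rw [if_pos Ideal.mul_le_left, sv_mul F s S 𝔭 h𝔭]
  · intro I hI
    have hle : I ≤ 𝔭.asIdeal := by
      by_contra h
      simp [h] at hI
    obtain ⟨J, rfl⟩ := Ideal.dvd_iff_le.mpr hle
    exact ⟨J, rfl⟩

open Classical in
theorem tsum_sv_insert {s : ℝ} (hs : 1 < s) (S : Finset (HeightOneSpectrum (𝓞 F)))
    (𝔭 : HeightOneSpectrum (𝓞 F)) (h𝔭 : 𝔭 ∉ S) :
    ∑' I, sv F s (insert 𝔭 S) I = (1 - nrm F s 𝔭.asIdeal) * ∑' I, sv F s S I := by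
  have h1 : Summable (fun I => if I ≤ 𝔭.asIdeal then sv F s S I else 0) := by
    refine Summable.of_nonneg_of_le (fun I => ?_) (fun I => ?_) (summable_sv F hs S)
    · split_ifs
      · exact sv_nonneg F s S I
      · exact le_rfl
    · split_ifs
      · exact le_rfl
      · exact sv_nonneg F s S I
  rw [funext (sv_insert F s S 𝔭), (summable_sv F hs S).tsum_sub h1, tsum_sv_dvd F S 𝔭 h𝔭]
  ring

/-- Euler's sieve identity. -/
theorem tsum_sv_eq {s : ℝ} (hs : 1 < s) (S : Finset (HeightOneSpectrum (𝓞 F))) :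
    ∑' I, sv F s S I = (∏ 𝔭 ∈ S, (1 - nrm F s 𝔭.asIdeal)) * zetaR F s := by
  classical
  induction S using Finset.induction_on with
  | empty => simp [sv_empty, zetaR_eq_tsum_nrm]
  | insert 𝔭 S h𝔭 ih => rw [tsum_sv_insert F hs S 𝔭 h𝔭, ih, Finset.prod_insert h𝔭, mul_assoc]

end Fermat.Agent.Cheb
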