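import Fermat.Agent.Cheb.Spec
import Fermat.Agent.Common.PlaceBridgeVal

/-!
# Generator-Chebotarev: from the number field statement to the Prelude language
-/

set_option autoImplicit false

namespace Fermat.Agent.Cheb

open NumberField Fermat.Agent.Bridge

local notation "Qbar" => AlgebraicClosure ℚ
local notation "GQ" => (AlgebraicClosure ℚ ≃ₐ[ℚ] AlgebraicClosure ℚ)

/-- The Prelude-language statement follows from the number field statement. -/
theorem preludeSpec_of (h : NumberFieldSpec) : PreludeSpec := by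
  intro L hL σ T
  let N : IntermediateField ℚ Qbar := IntermediateField.normalClosure ℚ L Qbar
  have hLN : L ≤ N := IntermediateField.le_normalClosure L
  have : FiniteDimensional ℚ L := hL
  have : FiniteDimensional ℚ N := normalClosure.is_finiteDimensional ℚ L Qbar
  have : Normal ℚ N := normalClosure.normal ℚ L Qbar
  have : NumberField N := { to_charZero := inferInstance, to_finiteDimensional := inferInstance }
  have : IsGalois ℚ N := { }
  let φ : N →+* Qbar := algebraMap N Qbar
  obtain ⟨ℓ, Q, hQ, τK, hℓ, hℓT, hmem, hunr, hfrob, hz⟩ := h N (res φ σ) T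
  obtain ⟨A, hA, hAQ⟩ := exists_place φ hℓ Q hmem
  subst hAQ
  obtain ⟨τ, hτ, hτK⟩ := exists_lift_of_isArithFrobAt hℓ hA hfrob
  have hres : res φ τ = τK := (res_eq_iff φ).mpr hτK
  have h1 : res φ σ ∈ Submonoid.powers τK := by
    rw [mem_powers_iff_mem_zpowers, hz]
    exact Subgroup.mem_zpowers _
  have h2 : τK ∈ Submonoid.powers (res φ σ) := by
    rw [mem_powers_iff_mem_zpowers, ← hz]
    exact Subgroup.mem_zpowers _
  obtain ⟨a, ha⟩ := h1
  obtain ⟨b, hb⟩ := h2
  refine ⟨ℓ, A, τ, a, b, hℓ, hℓT, hA, hτ, ?_, ?_, ?_⟩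
  · intro s hs x hx
    exact (isUnramifiedAt_iff hℓ hA).mp hunr s hs ⟨x, hLN hx⟩
  · intro x hx
    have e1 : res φ (τ ^ a) = res φ σ := by rw [map_pow, hres]; exact ha
    have e2 := res_spec φ (τ ^ a) ⟨x, hLN hx⟩
    have e3 := res_spec φ σ ⟨x, hLN hx⟩
    rw [e1] at e2
    exact e2.symm.trans e3
  · intro x hx
    have e1 : res φ (σ ^ b) = res φ τ := by rw [map_pow, hres]; exact hb
    have e2 := res_spec φ (σ ^ b) ⟨x, hLN hx⟩
    have e3 := res_spec φ τ ⟨x, hLN hx⟩
    rw [e1] at e2
    exact e2.symm.trans e3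

end Fermat.Agent.Cheb
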