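import Fermat.Agent.Cheb.Main
import Fermat.Agent.Cheb.Prelude

set_option autoImplicit false

namespace Fermat.Agent.Cheb

/-- **Generator-Chebotarev in the Prelude language** (unconditional). -/
theorem preludeSpec : PreludeSpec := preludeSpec_of numberFieldSpec

end Fermat.Agent.Cheb
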