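import Mathlib

/-!
# Cheb / ALG3 : finitely many ramified primes; Frobenius generates the decomposition group
(helper61)
-/

set_option autoImplicit false

open scoped NumberField Pointwise

namespace Fermat.Agent.Cheb

section Ram

variable (L : Type*) [Field L] [NumberField L]

/-- only finitely many naturals divide the discriminant. -/
theorem finite_dvd_discr : {l : ℕ | (l : ℤ) ∣ NumberField.discr L}.Finite := by
  have h0 : NumberField.discr L ≠ 0 := NumberField.discr_ne_zero L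
  apply Set.Finite.subset (Set.finite_Iic (NumberField.discr L).natAbs)
  intro l hl
  have h1 : l ∣ (NumberField.discr L).natAbs := Int.natCast_dvd.1 hl
  exact Nat.le_of_dvd (Int.natAbs_pos.2 h0) h1

variable {L}

/-- a prime not dividing the discriminant is unramified at every prime above it. -/
theorem isUnramifiedAt_of_not_dvd_discr {l : ℕ} (hl : l.Prime)
    (h : ¬ (l : ℤ) ∣ NumberField.discr L) (Q : Ideal (𝓞 L)) [hQ : Q.IsPrime]
    (hlQ : (l : 𝓞 L) ∈ Q) : Algebra.IsUnramifiedAt ℤ Q := by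
  have := (NumberField.not_dvd_discr_iff_forall_mem L (𝓞 L) (Nat.prime_iff_prime_int.1 hl)).1 h
  exact this Q hQ (by simpa using hlQ)

end Ram

section Frob

variable {L : Type*} [Field L] [NumberField L]

/-- iterating the Frobenius congruence -/
theorem pow_smul_sub_pow_mem {Q : Ideal (𝓞 L)} {σ : L ≃ₐ[ℚ] L} {q : ℕ}
    (hσ : ∀ x : 𝓞 L, σ • x - x ^ q ∈ Q) (j : ℕ) (x : 𝓞 L) :
    (σ ^ j) • x - x ^ (q ^ j) ∈ Q := by
  induction j generalizing x with
  | zero => simp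
  | succ j ih =>
    have h1 : (σ ^ (j + 1)) • x = (σ ^ j) • (σ • x) := by
      rw [pow_succ, mul_smul]
    have h2 : (σ ^ j) • (σ • x) - (σ • x) ^ (q ^ j) ∈ Q := ih (σ • x)
    have h3 : (σ • x) ^ (q ^ j) - (x ^ q) ^ (q ^ j) ∈ Q :=
      Q.mem_of_dvd (sub_dvd_pow_sub_pow _ _ _) (hσ x)
    have h4 : x ^ (q ^ (j + 1)) = (x ^ q) ^ (q ^ j) := by
      rw [← pow_mul, pow_succ, mul_comm]
    rw [h1, h4]
    have := Q.add_mem h2 h3
    simpa using this

variable [IsGalois ℚ L]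

/-- the decomposition group of an unramified prime has order the inertia degree. -/
theorem card_stabilizer_of_isUnramifiedAt (Q : Ideal (𝓞 L)) [Q.IsPrime]
    (hunr : Algebra.IsUnramifiedAt ℤ Q) :
    Nat.card (MulAction.stabilizer (L ≃ₐ[ℚ] L) Q) = Q.inertiaDeg ℤ := by
  rw [Ideal.card_stabilizer_eq (Q.under ℤ) Q,
    Ideal.ramificationIdxIn_eq_ramificationIdx _ Q (L ≃ₐ[ℚ] L),
    Ideal.inertiaDegIn_eq_inertiaDeg _ Q (L ≃ₐ[ℚ] L),
    Ideal.ramificationIdx_eq_one_iff.2 hunr, one_mul]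

/-- **ALG3**: at an unramified prime any arithmetic Frobenius generates the decomposition group. -/
theorem zpowers_eq_stabilizer (Q : Ideal (𝓞 L)) [Q.IsPrime]
    (hunr : Algebra.IsUnramifiedAt ℤ Q) (σ : L ≃ₐ[ℚ] L) (hσ : IsArithFrobAt ℤ σ Q) :
    Subgroup.zpowers σ = MulAction.stabilizer (L ≃ₐ[ℚ] L) Q := by
  classical
  have hle : Subgroup.zpowers σ ≤ MulAction.stabilizer (L ≃ₐ[ℚ] L) Q := by
    rw [Subgroup.zpowers_le]
    exact hσ.mem_stabilizer
  apply Subgroup.eq_of_le_of_card_ge hle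
  rw [card_stabilizer_of_isUnramifiedAt Q hunr, Nat.card_zpowers]
  -- notation
  set q := Nat.card (ℤ ⧸ Q.under ℤ) with hq
  have hfin : Finite (ℤ ⧸ Q.under ℤ) := hσ.finite_quotient
  have hp0 : Q.under ℤ ≠ ⊥ := by
    intro h
    rw [h] at hfin
    have : Infinite (ℤ ⧸ (⊥ : Ideal ℤ)) :=
      Infinite.of_injective (Ideal.Quotient.mk (⊥ : Ideal ℤ))
        ((RingHom.injective_iff_ker_eq_bot _).2 (by simp))
    exact not_finite (ℤ ⧸ (⊥ : Ideal ℤ))
  have hpmax : (Q.under ℤ).IsMaximal := Ideal.IsPrime.isMaximal inferInstance hp0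
  have hQ0 : Q ≠ ⊥ := by
    rintro rfl
    apply hp0
    simp [Ideal.comap_bot_of_injective _ (FaithfulSMul.algebraMap_injective ℤ (𝓞 L))]
  have hQmax : Q.IsMaximal := Ideal.IsPrime.isMaximal inferInstance hQ0
  have hcard : q ^ Q.inertiaDeg ℤ = Nat.card (𝓞 L ⧸ Q) := by
    have := Ideal.cardQuot_pow_inertiaDeg (Q.under ℤ) Q
    simpa [Submodule.cardQuot_apply] using this
  have hq2 : 2 ≤ q := by
    have : Nontrivial (ℤ ⧸ Q.under ℤ) := Ideal.Quotient.nontrivial_iff.2 hpmax.ne_top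
    exact Finite.one_lt_card
  set k := orderOf σ with hk
  have hkpos : 0 < k := orderOf_pos σ
  have hroot : ∀ x : 𝓞 L, x - x ^ (q ^ k) ∈ Q := by
    intro x
    have := pow_smul_sub_pow_mem (Q := Q) (σ := σ) (q := q) hσ k x
    rwa [hk, pow_orderOf_eq_one, one_smul, ← hk] at this
  -- count roots in the finite field
  let _ : Field (𝓞 L ⧸ Q) := Ideal.Quotient.field Q
  have hfinQ : Finite (𝓞 L ⧸ Q) := by
    apply Nat.finite_of_card_ne_zero
    rw [← hcard]
    positivity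
  let _ : Fintype (𝓞 L ⧸ Q) := Fintype.ofFinite _
  have hle2 : Nat.card (𝓞 L ⧸ Q) ≤ q ^ k := by
    have h1lt : 1 < q ^ k := Nat.one_lt_pow hkpos.ne' hq2
    let P : Polynomial (𝓞 L ⧸ Q) := Polynomial.X ^ (q ^ k) - Polynomial.X
    have hP0 : P ≠ 0 := FiniteField.X_pow_card_sub_X_ne_zero _ h1lt
    have hdeg : P.natDegree = q ^ k := FiniteField.X_pow_card_sub_X_natDegree_eq _ h1lt
    have hall : ∀ y : 𝓞 L ⧸ Q, y ∈ P.roots.toFinset := by
      intro y
      obtain ⟨x, rfl⟩ := Ideal.Quotient.mk_surjective y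
      rw [Multiset.mem_toFinset, Polynomial.mem_roots hP0, Polynomial.IsRoot.def]
      simp only [P, Polynomial.eval_sub, Polynomial.eval_pow, Polynomial.eval_X]
      have h := (Ideal.Quotient.eq_zero_iff_mem).2 (hroot x)
      rw [map_sub, map_pow] at h
      rw [← neg_sub, h, neg_zero]
    calc Nat.card (𝓞 L ⧸ Q) = Fintype.card (𝓞 L ⧸ Q) := Nat.card_eq_fintype_card
      _ = (Finset.univ : Finset (𝓞 L ⧸ Q)).card := rfl
      _ ≤ P.roots.toFinset.card := Finset.card_le_card (fun y _ => hall y)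
      _ ≤ Multiset.card P.roots := Multiset.toFinset_card_le _
      _ ≤ P.natDegree := Polynomial.card_roots' P
      _ = q ^ k := hdeg
  rw [← hcard] at hle2
  exact (Nat.pow_le_pow_iff_right hq2).1 hle2

/-- existence of an arithmetic Frobenius at a nonzero prime. -/
theorem exists_isArithFrobAt (Q : Ideal (𝓞 L)) [Q.IsPrime] (hQ0 : Q ≠ ⊥) :
    ∃ φ : L ≃ₐ[ℚ] L, IsArithFrobAt ℤ φ Q := by
  have : Finite (𝓞 L ⧸ Q) := Ideal.finiteQuotientOfFreeOfNeBot Q hQ0
  exact IsArithFrobAt.exists_of_isInvariant ℤ (L ≃ₐ[ℚ] L) Q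

/-- if the decomposition group of the unramified prime `Q` is `zpowers σ`, then some arithmetic
Frobenius at `Q` generates `zpowers σ`. -/
theorem exists_isArithFrobAt_zpowers_eq (Q : Ideal (𝓞 L)) [Q.IsPrime] (hQ0 : Q ≠ ⊥)
    (hunr : Algebra.IsUnramifiedAt ℤ Q) (σ : L ≃ₐ[ℚ] L)
    (hD : MulAction.stabilizer (L ≃ₐ[ℚ] L) Q = Subgroup.zpowers σ) :
    ∃ φ : L ≃ₐ[ℚ] L, IsArithFrobAt ℤ φ Q ∧ Subgroup.zpowers φ = Subgroup.zpowers σ := by
  obtain ⟨φ, hφ⟩ := exists_isArithFrobAt Q hQ0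
  exact ⟨φ, hφ, (zpowers_eq_stabilizer Q hunr φ hφ).trans hD⟩

/-- the shape of "unramified" consumed by `Count.lean` (ALG1). -/
theorem ramificationIdxIn_eq_one_of_not_dvd_discr {l : ℕ} (hl : l.Prime)
    (h : ¬ (l : ℤ) ∣ NumberField.discr L) :
    (Ideal.span {(l : ℤ)}).ramificationIdxIn (𝓞 L) = 1 := by
  have hp : (Ideal.span {(l : ℤ)}).IsPrime :=
    (Ideal.span_singleton_prime (by exact_mod_cast hl.ne_zero)).2 (Nat.prime_iff_prime_int.1 hl)
  obtain ⟨⟨Q, hQ1, hQ2⟩⟩ :=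
    (inferInstance : Nonempty (Ideal.primesOver (Ideal.span {(l : ℤ)}) (𝓞 L)))
  have hlQ : (l : 𝓞 L) ∈ Q := by
    have h1 : (l : ℤ) ∈ Q.under ℤ := by
      rw [← hQ2.over]; exact Ideal.mem_span_singleton_self _
    simpa [Ideal.under_def] using h1
  rw [Ideal.ramificationIdxIn_eq_ramificationIdx _ Q (L ≃ₐ[ℚ] L)]
  exact Ideal.ramificationIdx_eq_one_iff.2 (isUnramifiedAt_of_not_dvd_discr hl h Q hlQ)

end Frob

end Fermat.Agent.Cheb
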