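import Mathlib

/-!
# Cheb / ALG2 : Möbius inversion over the subgroups of a cyclic group (helper61)
-/

set_option autoImplicit false

open scoped ArithmeticFunction.Moebius

namespace Fermat.Agent.Cheb

open ArithmeticFunction

/-- `∑_{d ∣ n} μ(d) (n/d) = φ(n)`. -/
theorem sum_moebius_mul_div (n : ℕ) (hn : 0 < n) :
    ∑ d ∈ n.divisors, (μ d : ℤ) * ((n / d : ℕ) : ℤ) = (n.totient : ℤ) := by
  have h := (sum_eq_iff_sum_mul_moebius_eq (R := ℤ) (f := fun m => (m.totient : ℤ))
    (g := fun m => (m : ℤ))).1 (fun m _ => by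
      have := Nat.sum_totient m
      exact_mod_cast this) n hn
  rw [← h]
  exact (Nat.sum_divisorsAntidiagonal (f := fun a b => (μ a : ℤ) * (b : ℤ))).symm

theorem sum_moebius_mul_div_pos (n : ℕ) (hn : 0 < n) :
    0 < ∑ d ∈ n.divisors, (μ d : ℤ) * ((n / d : ℕ) : ℤ) := by
  rw [sum_moebius_mul_div n hn]
  exact_mod_cast Nat.totient_pos.2 hn

/-- `∑_{d ∣ n, d ∣ e} μ(d) = [e = 1]` for `e ∣ n`. -/
theorem sum_moebius_ite_dvd (n e : ℕ) (hn : 0 < n) (he : e ∣ n) :
    ∑ d ∈ n.divisors, (μ d : ℤ) * (if d ∣ e then 1 else 0) = if e = 1 then 1 else 0 := by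
  have he0 : e ≠ 0 := by
    rintro rfl
    simp at he
    omega
  have h1 : ∑ d ∈ n.divisors, (μ d : ℤ) * (if d ∣ e then 1 else 0)
      = ∑ d ∈ e.divisors, (μ d : ℤ) := by
    simp only [mul_ite, mul_one, mul_zero]
    rw [← Finset.sum_filter]
    apply Finset.sum_congr _ (fun _ _ => rfl)
    ext d
    simp only [Finset.mem_filter, Nat.mem_divisors]
    constructor
    · rintro ⟨-, h⟩
      exact ⟨h, he0⟩
    · rintro ⟨h, -⟩
      exact ⟨⟨h.trans he, hn.ne'⟩, h⟩
  rw [h1]
  have h2 := congrArg (fun F : ArithmeticFunction ℤ => F e) moebius_mul_coe_zeta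
  simp only [mul_apply, one_apply] at h2
  rw [← h2, Nat.sum_divisorsAntidiagonal
    (f := fun a b => (μ a : ℤ) * ((zeta : ArithmeticFunction ℤ) b))]
  apply Finset.sum_congr rfl
  intro d hd
  have hd' := Nat.mem_divisors.1 hd
  have : e / d ≠ 0 := by
    intro h
    rcases (Nat.div_eq_zero_iff).1 h with h | h
    · subst h; simp at hd'
    · exact absurd (Nat.le_of_dvd (Nat.pos_of_ne_zero he0) hd'.1) (not_le.2 h)
  simp [natCoe_apply, zeta_apply, this]

variable {G : Type*} [Group G]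

/-- for `d ∣ orderOf σ`: `σ ^ k ∈ zpowers (σ ^ d) ↔ d ∣ k`. -/
theorem zpow_mem_zpowers_pow_iff (σ : G) {d : ℕ} (hd : d ∣ orderOf σ) (k : ℤ) :
    σ ^ k ∈ Subgroup.zpowers (σ ^ d) ↔ (d : ℤ) ∣ k := by
  constructor
  · rintro ⟨j, hj⟩
    have hj' : σ ^ ((d : ℤ) * j) = σ ^ k := by
      rw [zpow_mul, zpow_natCast]; exact hj
    have h2 : σ ^ ((d : ℤ) * j - k) = 1 := by
      rw [zpow_sub, hj', mul_inv_cancel]
    have h3 : (orderOf σ : ℤ) ∣ (d : ℤ) * j - k := (orderOf_dvd_iff_zpow_eq_one).2 h2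
    have h4 : (d : ℤ) ∣ (d : ℤ) * j - k := (Int.natCast_dvd_natCast.2 hd).trans h3
    have h5 : (d : ℤ) ∣ (d : ℤ) * j := Dvd.intro _ rfl
    exact (Int.dvd_iff_dvd_of_dvd_sub h4).1 h5
  · rintro ⟨j, rfl⟩
    refine ⟨j, ?_⟩
    show (σ ^ d) ^ j = _
    rw [zpow_mul, zpow_natCast]

open Classical in
/-- **ALG2**: Möbius inversion detects the full cyclic group among all subgroups. -/
theorem sum_moebius_le_zpowers (σ : G) (hσ : IsOfFinOrder σ) (D : Subgroup G) :
    ∑ d ∈ (orderOf σ).divisors,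
        (μ d : ℤ) * (if D ≤ Subgroup.zpowers (σ ^ d) then 1 else 0)
      = if D = Subgroup.zpowers σ then 1 else 0 := by
  have hn : 0 < orderOf σ := hσ.orderOf_pos
  by_cases hD : D ≤ Subgroup.zpowers σ
  · -- the subgroup of exponents
    let K : AddSubgroup ℤ :=
      { carrier := {k | σ ^ k ∈ D}
        zero_mem' := by simp [D.one_mem]
        add_mem' := by
          intro a b ha hb
          simp only [Set.mem_ofPred_eq] at *
          rw [zpow_add]; exact D.mul_mem ha hb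
        neg_mem' := by
          intro a ha
          simp only [Set.mem_ofPred_eq] at *
          rw [zpow_neg]; exact D.inv_mem ha }
    obtain ⟨e0, he0⟩ := Int.subgroup_cyclic K
    have hK : ∀ k : ℤ, σ ^ k ∈ D ↔ e0 ∣ k := by
      intro k
      have : k ∈ K ↔ σ ^ k ∈ D := Iff.rfl
      rw [← this, he0, AddSubgroup.mem_closure_singleton]
      constructor
      · rintro ⟨j, rfl⟩; exact ⟨j, by simp [mul_comm]⟩
      · rintro ⟨j, rfl⟩; exact ⟨j, by simp [mul_comm]⟩
    set e : ℕ := e0.natAbs with he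
    have hK' : ∀ k : ℤ, σ ^ k ∈ D ↔ (e : ℤ) ∣ k := by
      intro k; rw [hK, he, Int.natCast_natAbs, abs_dvd]
    have hen : e ∣ orderOf σ := by
      have : σ ^ ((orderOf σ : ℕ) : ℤ) ∈ D := by
        rw [zpow_natCast, pow_orderOf_eq_one]; exact D.one_mem
      exact Int.natCast_dvd_natCast.1 ((hK' _).1 this)
    have key : ∀ d ∈ (orderOf σ).divisors,
        (D ≤ Subgroup.zpowers (σ ^ d) ↔ d ∣ e) := by
      intro d hd
      have hd' := (Nat.mem_divisors.1 hd).1
      constructor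
      · intro h
        have h1 : σ ^ (e : ℤ) ∈ D := (hK' _).2 dvd_rfl
        exact Int.natCast_dvd_natCast.1 ((zpow_mem_zpowers_pow_iff σ hd' _).1 (h h1))
      · intro h x hx
        obtain ⟨k, rfl⟩ := hD hx
        have hx' : σ ^ k ∈ D := hx
        exact (zpow_mem_zpowers_pow_iff σ hd' _).2
          ((Int.natCast_dvd_natCast.2 h).trans ((hK' _).1 hx'))
    have h1 : ∑ d ∈ (orderOf σ).divisors,
        (μ d : ℤ) * (if D ≤ Subgroup.zpowers (σ ^ d) then 1 else 0)
        = ∑ d ∈ (orderOf σ).divisors, (μ d : ℤ) * (if d ∣ e then 1 else 0) := by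
      apply Finset.sum_congr rfl
      intro d hd
      simp only [key d hd]
    rw [h1, sum_moebius_ite_dvd _ _ hn hen]
    have h2 : D = Subgroup.zpowers σ ↔ e = 1 := by
      constructor
      · intro h
        have : σ ^ (1 : ℤ) ∈ D := by
          rw [h, zpow_one]; exact Subgroup.mem_zpowers σ
        have := (hK' _).1 this
        exact Nat.dvd_one.1 (Int.natCast_dvd_natCast.1 (by simpa using this))
      · intro h
        apply le_antisymm hD
        rw [Subgroup.zpowers_le]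
        have : σ ^ (1 : ℤ) ∈ D := (hK' _).2 (by simp [h])
        simpa using this
    simp only [h2]
  · have h1 : ∀ d ∈ (orderOf σ).divisors, ¬ D ≤ Subgroup.zpowers (σ ^ d) := by
      intro d _ h
      apply hD
      refine h.trans ?_
      rw [Subgroup.zpowers_le]
      exact Subgroup.pow_mem _ (Subgroup.mem_zpowers σ) d
    have h2 : D ≠ Subgroup.zpowers σ := fun h => hD h.le
    rw [if_neg h2]
    apply Finset.sum_eq_zero
    intro d hd
    rw [if_neg (h1 d hd), mul_zero]

/-- cardinality of `zpowers (σ ^ d)` for `d ∣ orderOf σ`. -/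
theorem card_zpowers_pow (σ : G) (hσ : IsOfFinOrder σ) {d : ℕ} (hd : d ∣ orderOf σ) :
    Nat.card (Subgroup.zpowers (σ ^ d)) = orderOf σ / d := by
  rw [Nat.card_zpowers, orderOf_pow_of_dvd _ hd]
  rintro rfl
  have := hσ.orderOf_pos
  rw [zero_dvd_iff] at hd
  omega

end Fermat.Agent.Cheb
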