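import Mathlib
import Fermat.Prelude.Def_EllipticCurve_FrobeniusTrace

/-!
# Generator-Chebotarev (Frobenius density theorem, existence form): the two target statements

`NumberFieldSpec` : Mathlib language (deliverable of `Cheb/Main.lean`).
`PreludeSpec`     : Prelude language (deliverable of `Cheb/Prelude.lean`).
Consumers may take `(h : Fermat.Agent.Cheb.PreludeSpec)` as a hypothesis until the proofs land.
-/

set_option autoImplicit false

namespace Fermat.Agent.Cheb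

open NumberField

/-- For `L/ℚ` finite Galois, `σ ∈ Gal(L/ℚ)` and a finite set `T` of primes there are a prime
`ℓ ∉ T`, a prime `Q` of `𝓞 L` over `ℓ`, unramified, and an arithmetic Frobenius `τ` at `Q`
generating the same cyclic subgroup as `σ`. -/
def NumberFieldSpec : Prop :=
  ∀ (L : Type) [Field L] [NumberField L] [IsGalois ℚ L] (σ : L ≃ₐ[ℚ] L) (T : Finset ℕ),
    ∃ (ℓ : ℕ) (Q : Ideal (𝓞 L)) (_ : Q.IsPrime) (τ : L ≃ₐ[ℚ] L), ℓ.Prime ∧ ℓ ∉ T ∧
      (ℓ : 𝓞 L) ∈ Q ∧ Algebra.IsUnramifiedAt ℤ Q ∧ IsArithFrobAt ℤ τ Q ∧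
      Subgroup.zpowers τ = Subgroup.zpowers σ

/-- Prelude language. `L` is any finite subextension of `ℚbar` (not necessarily normal). -/
def PreludeSpec : Prop :=
  ∀ (L : IntermediateField ℚ (AlgebraicClosure ℚ)), FiniteDimensional ℚ L →
    ∀ (σ : AlgebraicClosure ℚ ≃ₐ[ℚ] AlgebraicClosure ℚ) (T : Finset ℕ),
    ∃ (ℓ : ℕ) (A : ValuationSubring (AlgebraicClosure ℚ))
      (τ : AlgebraicClosure ℚ ≃ₐ[ℚ] AlgebraicClosure ℚ) (a b : ℕ),
      ℓ.Prime ∧ ℓ ∉ T ∧ A.LiesOverPrime ℓ ∧ A.IsFrobeniusAt τ ℓ ∧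
      (∀ s ∈ A.inertiaSubgroupIn ℚ, ∀ x ∈ L, s x = x) ∧
      (∀ x ∈ L, (τ ^ a) x = σ x) ∧ (∀ x ∈ L, (σ ^ b) x = τ x)

end Fermat.Agent.Cheb
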