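import Fermat.Agent.Cheb.Analytic
import Fermat.Agent.Cheb.ZetaLog
import Fermat.Agent.Cheb.Count
import Fermat.Agent.Cheb.Moebius
import Fermat.Agent.Cheb.Frob
import Fermat.Agent.Cheb.Spec

set_option autoImplicit false

namespace Fermat.Agent.Cheb

open NumberField
open scoped Pointwise ArithmeticFunction.Moebius

variable (L : Type*) [Field L] [NumberField L] [IsGalois ℚ L]

/-- primes of `L` over the rational prime `l`. -/
abbrev primesAbove (l : ℕ) : Set (Ideal (𝓞 L)) := (Ideal.span {(l : ℤ)}).primesOver (𝓞 L)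

theorem card_subtype_and_eq_sum {α : Type*} {P : Set α} (hP : P.Finite) (p : α → Prop)
    [DecidablePred p] :
    (Nat.card {x : α // x ∈ P ∧ p x} : ℤ) = ∑ x ∈ hP.toFinset, if p x then 1 else 0 := by
  classical
  rw [Finset.sum_boole]
  congr 1
  have : {x : α | x ∈ P ∧ p x} = ↑(hP.toFinset.filter p) := by
    ext x; simp
  have h2 : Nat.card {x : α // x ∈ P ∧ p x} = Nat.card ↥({x : α | x ∈ P ∧ p x}) := rfl
  rw [h2, Nat.card_coe_set_eq, this, Set.ncard_coe_finset]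

variable {L}

omit [IsGalois ℚ L] in
/-- Assembly of generator-Chebotarev from the leaves (stated as hypotheses). -/
theorem exists_of_leaves (σ : L ≃ₐ[ℚ] L) (Bad : Finset ℕ)
    (a : Subgroup (L ≃ₐ[ℚ] L) → ℕ → ℕ)
    (hsum : ∀ (U : Subgroup (L ≃ₐ[ℚ] L)) (s : ℝ), 1 < s → Summable fun l : Nat.Primes =>
      (a U (l : ℕ) : ℝ) * ((l : ℕ) : ℝ) ^ (-s))
    (hasymp : ∀ U : Subgroup (L ≃ₐ[ℚ] L), ∃ C : ℝ, ∀ s : ℝ, 1 < s → s ≤ 2 →
      |(∑' l : Nat.Primes, (a U (l : ℕ) : ℝ) *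
        ((l : ℕ) : ℝ) ^ (-s)) - Real.log (1 / (s - 1))| ≤ C)
    (hfin : ∀ l : ℕ, l.Prime → (primesAbove L l).Finite)
    (hcount : ∀ l : ℕ, l.Prime → l ∉ Bad → ∃ f : ℕ, ∀ U : Subgroup (L ≃ₐ[ℚ] L),
      Nat.card U * a U l =
        f * Nat.card {Q : Ideal (𝓞 L) // Q ∈ primesAbove L l ∧
          MulAction.stabilizer (L ≃ₐ[ℚ] L) Q ≤ U})
    (hmoeb : ∀ D : Subgroup (L ≃ₐ[ℚ] L), (∑ d ∈ (orderOf σ).divisors,
      (μ d : ℤ) * (open Classical in if D ≤ Subgroup.zpowers (σ ^ d) then 1 else 0)) =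
        (open Classical in if D = Subgroup.zpowers σ then 1 else 0))
    (hpos : 0 < ∑ d ∈ (orderOf σ).divisors, (μ d : ℤ) * ((orderOf σ / d : ℕ) : ℤ)) :
    ∃ (l : ℕ) (Q : Ideal (𝓞 L)), l.Prime ∧ l ∉ Bad ∧ Q ∈ primesAbove L l ∧
      MulAction.stabilizer (L ≃ₐ[ℚ] L) Q = Subgroup.zpowers σ := by
  classical
  by_contra hcon
  push Not at hcon
  set n := orderOf σ with hn
  refine analytic_contradiction n.divisors (fun d => ((μ d : ℤ) : ℝ) * ((n / d : ℕ) : ℝ))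
    (fun d l => (a (Subgroup.zpowers (σ ^ d)) (l : ℕ) : ℝ))
    (fun d _ s hs => hsum _ s hs) (fun d _ => hasymp _) ?_ (Bad.subtype Nat.Prime) ?_
  · have : ((∑ d ∈ n.divisors, (μ d : ℤ) * ((n / d : ℕ) : ℤ) : ℤ) : ℝ)
        = ∑ d ∈ n.divisors, ((μ d : ℤ) : ℝ) * ((n / d : ℕ) : ℝ) := by push_cast; rfl
    rw [← this]
    exact_mod_cast hpos
  · intro l hl
    have hlB : (l : ℕ) ∉ Bad := by
      intro h; exact hl (Finset.mem_subtype.2 h)
    obtain ⟨f, hf⟩ := hcount l l.2 hlB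
    have hP := hfin l l.2
    have key : ∑ d ∈ n.divisors, (μ d : ℤ) * ((n / d : ℕ) : ℤ) *
        (a (Subgroup.zpowers (σ ^ d)) (l : ℕ) : ℤ) = 0 := by
      have h1 : ∀ d ∈ n.divisors, (μ d : ℤ) * ((n / d : ℕ) : ℤ) *
          (a (Subgroup.zpowers (σ ^ d)) (l : ℕ) : ℤ)
          = (f : ℤ) * ∑ Q ∈ hP.toFinset, (μ d : ℤ) *
            (if MulAction.stabilizer (L ≃ₐ[ℚ] L) Q ≤ Subgroup.zpowers (σ ^ d) then 1 else 0) := by
        intro d hd
        have hd' := Nat.mem_divisors.1 hd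
        have hd0 : d ≠ 0 := by
          rintro rfl
          exact hd'.2 (Nat.eq_zero_of_zero_dvd hd'.1)
        have hcard : Nat.card (Subgroup.zpowers (σ ^ d)) = n / d := by
          rw [Nat.card_zpowers, orderOf_pow_of_dvd hd0 hd'.1]
        have h2 := hf (Subgroup.zpowers (σ ^ d))
        rw [hcard] at h2
        have h3 := congrArg (Nat.cast : ℕ → ℤ) h2
        rw [Nat.cast_mul, Nat.cast_mul] at h3
        rw [card_subtype_and_eq_sum hP
          (fun Q => MulAction.stabilizer (L ≃ₐ[ℚ] L) Q ≤ Subgroup.zpowers (σ ^ d))] at h3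
        rw [mul_assoc, h3, ← Finset.mul_sum]
        ring
      rw [Finset.sum_congr rfl h1, ← Finset.mul_sum, Finset.sum_comm]
      have h4 : ∀ Q ∈ hP.toFinset, ∑ d ∈ n.divisors, (μ d : ℤ) *
          (if MulAction.stabilizer (L ≃ₐ[ℚ] L) Q ≤ Subgroup.zpowers (σ ^ d) then 1 else 0) = 0 := by
        intro Q hQ
        have h5 := hmoeb (MulAction.stabilizer (L ≃ₐ[ℚ] L) Q)
        rw [if_neg (hcon l Q l.2 hlB (hP.mem_toFinset.1 hQ))] at h5
        refine Eq.trans (Finset.sum_congr rfl fun d _ => ?_) h5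
        congr 1
      rw [Finset.sum_eq_zero h4, mul_zero]
    have := congrArg (Int.cast : ℤ → ℝ) key
    push_cast at this
    exact this

/-- **Generator-Chebotarev**, universe-polymorphic version. -/
theorem exists_frob_generator (σ : L ≃ₐ[ℚ] L) (T : Finset ℕ) :
    ∃ (ℓ : ℕ) (Q : Ideal (𝓞 L)) (_ : Q.IsPrime) (τ : L ≃ₐ[ℚ] L), ℓ.Prime ∧ ℓ ∉ T ∧
      (ℓ : 𝓞 L) ∈ Q ∧ Algebra.IsUnramifiedAt ℤ Q ∧ IsArithFrobAt ℤ τ Q ∧
      Subgroup.zpowers τ = Subgroup.zpowers σ := by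
  classical
  set Bad : Finset ℕ := T ∪ (finite_dvd_discr L).toFinset with hBad
  have hmemQ : ∀ (l : ℕ) (Q : Ideal (𝓞 L)), Q ∈ primesAbove L l → (l : 𝓞 L) ∈ Q := by
    intro l Q hQ
    have h1 : Ideal.span {(l : ℤ)} = Q.under ℤ := hQ.2.over
    have h2 : (l : ℤ) ∈ Q.under ℤ := h1 ▸ Ideal.subset_span rfl
    simpa [Ideal.under, Ideal.mem_comap] using h2
  have hgood : ∀ l : ℕ, l ∉ Bad → ¬ (l : ℤ) ∣ NumberField.discr L := by
    intro l hl h
    exact hl (Finset.mem_union_right _ ((finite_dvd_discr L).mem_toFinset.2 h))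
  obtain ⟨l, Q, hl, hlB, hQ, hD⟩ := exists_of_leaves σ Bad (fun U l => idealCount (fixF L U) l)
    (fun U s hs => summable_primeSum (fixF L U) hs)
    (fun U => primeSum_asymp (fixF L U))
    (fun l _ => Algebra.QuasiFinite.finite_primesOver _)
    (by
      intro l hl hlB
      have hpl := isPrime_span_natCast hl
      refine ⟨(Ideal.span {(l : ℤ)}).inertiaDegIn (𝓞 L), fun U => ?_⟩
      have hunr : (Ideal.span {(l : ℤ)}).ramificationIdxIn (𝓞 L) = 1 := by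
        obtain ⟨⟨Q, hQ1, hQ2⟩⟩ := (Ideal.span {(l : ℤ)}).nonempty_primesOver (S := 𝓞 L)
        rw [Ideal.ramificationIdxIn_eq_ramificationIdx _ Q (L ≃ₐ[ℚ] L)]
        exact Ideal.ramificationIdx_eq_one_iff.2
          (isUnramifiedAt_of_not_dvd_discr hl (hgood l hlB) Q (hmemQ l Q ⟨hQ1, hQ2⟩))
      rw [card_mul_idealCount U hl hunr]
      congr 1
      exact Nat.card_congr (Equiv.subtypeSubtypeEquivSubtypeInter
        (fun Q : Ideal (𝓞 L) => Q ∈ primesAbove L l)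
        (fun Q : Ideal (𝓞 L) => MulAction.stabilizer (L ≃ₐ[ℚ] L) Q ≤ U)))
    (fun D => sum_moebius_le_zpowers σ (isOfFinOrder_of_finite σ) D)
    (sum_moebius_mul_div_pos _ (orderOf_pos σ))
  have hQp : Q.IsPrime := hQ.1
  have hlQ := hmemQ l Q hQ
  have hunr := isUnramifiedAt_of_not_dvd_discr hl (hgood l hlB) Q hlQ
  have hQ0 : Q ≠ ⊥ := by
    rintro rfl
    have : (l : 𝓞 L) = 0 := by simpa using hlQ
    exact hl.ne_zero (by exact_mod_cast this)
  obtain ⟨φ, hφ, hz⟩ := exists_isArithFrobAt_zpowers_eq Q hQ0 hunr σ hD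
  exact ⟨l, Q, hQp, φ, hl, fun h => hlB (Finset.mem_union_left _ h), hlQ, hunr, hφ, hz⟩

/-- the deliverable of `Cheb/Spec.lean`. -/
theorem numberFieldSpec : NumberFieldSpec :=
  fun _ _ _ _ σ T => exists_frob_generator σ T

end Fermat.Agent.Cheb
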