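import Fermat.Agent.Cheb.Euler

set_option autoImplicit false

namespace Fermat.Agent.Cheb

open NumberField Filter Topology IsDedekindDomain

variable (F : Type*) [Field F] [NumberField F]

theorem nrm_bot {s : ℝ} (hs : 1 < s) : nrm F s ⊥ = 0 := by
  unfold nrm
  rw [Ideal.absNorm_bot, Nat.cast_zero, Real.zero_rpow (by linarith)]

theorem two_le_absNorm (𝔭 : HeightOneSpectrum (𝓞 F)) : 2 ≤ Ideal.absNorm 𝔭.asIdeal := by
  have h0 : Ideal.absNorm 𝔭.asIdeal ≠ 0 := by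
    rw [Ne, Ideal.absNorm_eq_zero_iff]; exact 𝔭.ne_bot
  have h1 : Ideal.absNorm 𝔭.asIdeal ≠ 1 := by
    rw [Ne, Ideal.absNorm_eq_one_iff]; exact 𝔭.isPrime.ne_top
  omega

theorem nrm_prime_le_half {s : ℝ} (hs : 1 ≤ s) (𝔭 : HeightOneSpectrum (𝓞 F)) :
    nrm F s 𝔭.asIdeal ≤ 1 / 2 := by
  unfold nrm
  have h2 : (2 : ℝ) ≤ (Ideal.absNorm 𝔭.asIdeal : ℝ) := by exact_mod_cast two_le_absNorm F 𝔭
  have hpos : (0 : ℝ) < (Ideal.absNorm 𝔭.asIdeal : ℝ) := by linarith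
  rw [Real.rpow_neg hpos.le, one_div]
  apply inv_anti₀ (by norm_num)
  calc (2 : ℝ) ≤ (Ideal.absNorm 𝔭.asIdeal : ℝ) := h2
    _ = (Ideal.absNorm 𝔭.asIdeal : ℝ) ^ (1 : ℝ) := (Real.rpow_one _).symm
    _ ≤ (Ideal.absNorm 𝔭.asIdeal : ℝ) ^ s := Real.rpow_le_rpow_of_exponent_le (by linarith) hs

theorem nrm_antitone {s t : ℝ} (hs : 1 < s) (hst : s ≤ t) (I : Ideal (𝓞 F)) :
    nrm F t I ≤ nrm F s I := by
  rcases eq_or_ne I ⊥ with rfl | hI
  · rw [nrm_bot F hs, nrm_bot F (hs.trans_le hst)]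
  · unfold nrm
    have h0 : Ideal.absNorm I ≠ 0 := by rwa [Ne, Ideal.absNorm_eq_zero_iff]
    have h1 : (1 : ℝ) ≤ (Ideal.absNorm I : ℝ) := by exact_mod_cast Nat.one_le_iff_ne_zero.mpr h0
    exact Real.rpow_le_rpow_of_exponent_le h1 (by linarith)

theorem one_le_tsum_sv {s : ℝ} (hs : 1 < s) (S : Finset (HeightOneSpectrum (𝓞 F))) :
    1 ≤ ∑' I, sv F s S I := by
  have := (summable_sv F hs S).le_tsum ⊤ (fun I _ => sv_nonneg F s S I)
  rwa [sv_top] at this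

theorem one_le_zetaR {s : ℝ} (hs : 1 < s) : 1 ≤ zetaR F s := by
  have := one_le_tsum_sv F hs ∅
  rwa [sv_empty] at this

theorem zetaR_antitone {s t : ℝ} (hs : 1 < s) (hst : s ≤ t) : zetaR F t ≤ zetaR F s :=
  (summable_nrm F (hs.trans_le hst)).tsum_le_tsum (nrm_antitone F hs hst) (summable_nrm F hs)

theorem exists_cover (A : Finset (Ideal (𝓞 F))) :
    ∃ S : Finset (HeightOneSpectrum (𝓞 F)), ∀ I ∈ A, I ≠ ⊤ → I ≠ ⊥ → ∃ 𝔮 ∈ S, I ≤ 𝔮.asIdeal := by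
  classical
  induction A using Finset.induction_on with
  | empty => exact ⟨∅, by simp⟩
  | insert J A _ ih =>
    obtain ⟨S, hS⟩ := ih
    by_cases hJ : J ≠ ⊤ ∧ J ≠ ⊥
    · obtain ⟨M, hM, hJM⟩ := Ideal.exists_le_maximal J hJ.1
      have hM0 : M ≠ ⊥ := fun h => hJ.2 (le_bot_iff.mp (h ▸ hJM))
      refine ⟨insert ⟨M, hM.isPrime, hM0⟩ S, fun I hI h1 h2 => ?_⟩
      rcases Finset.mem_insert.mp hI with rfl | hI
      · exact ⟨_, Finset.mem_insert_self _ _, hJM⟩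
      · obtain ⟨𝔮, h𝔮, hle⟩ := hS I hI h1 h2
        exact ⟨𝔮, Finset.mem_insert_of_mem h𝔮, hle⟩
    · refine ⟨S, fun I hI h1 h2 => ?_⟩
      rcases Finset.mem_insert.mp hI with rfl | hI
      · exact absurd ⟨h1, h2⟩ hJ
      · exact hS I hI h1 h2

theorem exists_tsum_sv_le_two {s : ℝ} (hs : 1 < s) :
    ∃ S : Finset (HeightOneSpectrum (𝓞 F)), ∑' I, sv F s S I ≤ 2 := by
  classical
  have hsum := summable_nrm F hs
  obtain ⟨A, hA⟩ : ∃ A : Finset (Ideal (𝓞 F)), zetaR F s - 1 < ∑ I ∈ A, nrm F s I := by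
    by_contra h
    push Not at h
    have := hsum.tsum_le_of_sum_le h
    rw [← zetaR_eq_tsum_nrm] at this
    linarith
  obtain ⟨S, hS⟩ := exists_cover F A
  refine ⟨S, ?_⟩
  -- pointwise bound
  have hpt : ∀ I, sv F s S I ≤ nrm F s I - (if I ∈ A.erase ⊤ then nrm F s I else 0) := by
    intro I
    by_cases hI : I ∈ A.erase ⊤
    · rw [if_pos hI, sub_self]
      obtain ⟨hne, hIA⟩ := Finset.mem_erase.mp hI
      rcases eq_or_ne I ⊥ with rfl | hbot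
      · exact (sv_le F s S ⊥).trans (nrm_bot F hs).le
      · obtain ⟨𝔮, h𝔮, hle⟩ := hS I hIA hne hbot
        unfold sv
        rw [if_neg]
        intro h
        exact h 𝔮 h𝔮 hle
    · rw [if_neg hI, sub_zero]
      exact sv_le F s S I
  have hfin : Summable (fun I => if I ∈ A.erase ⊤ then nrm F s I else 0) :=
    summable_of_finite_support ((A.erase ⊤).finite_toSet.subset (fun I hI => by
      by_contra h
      rw [Finset.mem_coe] at h
      rw [Function.mem_support, if_neg h] at hI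
      exact hI rfl))
  have h1 : ∑' I, sv F s S I ≤ ∑' I, (nrm F s I - (if I ∈ A.erase ⊤ then nrm F s I else 0)) :=
    (summable_sv F hs S).tsum_le_tsum hpt (hsum.sub hfin)
  rw [hsum.tsum_sub hfin, ← zetaR_eq_tsum_nrm] at h1
  have h2 : ∑' I, (if I ∈ A.erase ⊤ then nrm F s I else 0) = ∑ I ∈ A.erase ⊤, nrm F s I := by
    rw [tsum_eq_sum (s := A.erase ⊤) (fun I hI => by rw [if_neg hI])]
    exact Finset.sum_congr rfl (fun I hI => by rw [if_pos hI])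
  have h3 : ∑ I ∈ A, nrm F s I ≤ ∑ I ∈ A.erase ⊤, nrm F s I + 1 := by
    by_cases htop : ⊤ ∈ A
    · rw [← Finset.sum_erase_add A _ htop, nrm_top]
    · rw [Finset.erase_eq_of_notMem htop]; linarith
  linarith

theorem nrm_prime_pos (s : ℝ) (𝔭 : HeightOneSpectrum (𝓞 F)) : 0 < nrm F s 𝔭.asIdeal := by
  unfold nrm
  have h2 : (2 : ℝ) ≤ (Ideal.absNorm 𝔭.asIdeal : ℝ) := by exact_mod_cast two_le_absNorm F 𝔭
  exact Real.rpow_pos_of_pos (by linarith) _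

theorem one_sub_nrm_pos {s : ℝ} (hs : 1 < s) (𝔭 : HeightOneSpectrum (𝓞 F)) :
    0 < 1 - nrm F s 𝔭.asIdeal := by
  have := nrm_prime_le_half F hs.le 𝔭
  linarith

theorem sum_nrm_le_log_zetaR {s : ℝ} (hs : 1 < s) (S : Finset (HeightOneSpectrum (𝓞 F))) :
    ∑ 𝔭 ∈ S, nrm F s 𝔭.asIdeal ≤ Real.log (zetaR F s) := by
  have h1 := one_le_tsum_sv F hs S
  rw [tsum_sv_eq F hs S] at h1
  have hZ : 0 < zetaR F s := lt_of_lt_of_le one_pos (one_le_zetaR F hs)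
  have hP : 0 < ∏ 𝔭 ∈ S, (1 - nrm F s 𝔭.asIdeal) :=
    Finset.prod_pos (fun 𝔭 _ => one_sub_nrm_pos F hs 𝔭)
  have h2 : 0 ≤ Real.log ((∏ 𝔭 ∈ S, (1 - nrm F s 𝔭.asIdeal)) * zetaR F s) := Real.log_nonneg h1
  rw [Real.log_mul hP.ne' hZ.ne', Real.log_prod (fun 𝔭 _ => (one_sub_nrm_pos F hs 𝔭).ne')] at h2
  have h3 : ∑ 𝔭 ∈ S, Real.log (1 - nrm F s 𝔭.asIdeal) ≤ ∑ 𝔭 ∈ S, (- nrm F s 𝔭.asIdeal) := by
    refine Finset.sum_le_sum (fun 𝔭 _ => ?_)
    have := Real.log_le_sub_one_of_pos (one_sub_nrm_pos F hs 𝔭)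
    linarith
  rw [Finset.sum_neg_distrib] at h3
  linarith

theorem summable_nrm_prime {s : ℝ} (hs : 1 < s) :
    Summable (fun 𝔭 : HeightOneSpectrum (𝓞 F) => nrm F s 𝔭.asIdeal) :=
  summable_of_sum_le (fun 𝔭 => nrm_nonneg F s _) (sum_nrm_le_log_zetaR F hs)

/-- `∑_𝔭 N𝔭^(-s)` over all nonzero prime ideals. -/
noncomputable def primeIdealSum (s : ℝ) : ℝ :=
  ∑' 𝔭 : HeightOneSpectrum (𝓞 F), nrm F s 𝔭.asIdeal

theorem primeIdealSum_le_log_zetaR {s : ℝ} (hs : 1 < s) :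
    primeIdealSum F s ≤ Real.log (zetaR F s) :=
  (summable_nrm_prime F hs).tsum_le_of_sum_le (sum_nrm_le_log_zetaR F hs)

theorem neg_log_one_sub_le {x : ℝ} (h0 : 0 ≤ x) (h1 : x ≤ 1 / 2) :
    - Real.log (1 - x) ≤ x + 2 * x ^ 2 := by
  have hpos : 0 < 1 - x := by linarith
  have h := Real.one_sub_inv_le_log_of_pos hpos
  have h2 : (1 - x)⁻¹ ≤ 1 + x + 2 * x ^ 2 := by
    rw [inv_le_iff_one_le_mul₀ hpos]
    nlinarith [mul_nonneg h0 h0, mul_nonneg (mul_nonneg h0 h0) (by linarith : 0 ≤ 1 / 2 - x)]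
  linarith

theorem nrm_sq_le {s : ℝ} (hs : 1 < s) (I : Ideal (𝓞 F)) : nrm F s I ^ 2 ≤ nrm F 2 I := by
  have : nrm F s I ^ 2 = nrm F (2 * s) I := by
    unfold nrm
    rw [← Real.rpow_natCast, ← Real.rpow_mul (Nat.cast_nonneg _)]
    congr 1
    push_cast
    ring
  rw [this]
  exact nrm_antitone F (by norm_num) (by linarith) I

theorem log_zetaR_le {s : ℝ} (hs : 1 < s) :
    Real.log (zetaR F s) ≤ Real.log 2 + primeIdealSum F s + 2 * primeIdealSum F 2 := by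
  obtain ⟨S, hS⟩ := exists_tsum_sv_le_two F hs
  rw [tsum_sv_eq F hs S] at hS
  have hZ : 0 < zetaR F s := lt_of_lt_of_le one_pos (one_le_zetaR F hs)
  have hP : 0 < ∏ 𝔭 ∈ S, (1 - nrm F s 𝔭.asIdeal) :=
    Finset.prod_pos (fun 𝔭 _ => one_sub_nrm_pos F hs 𝔭)
  have h2 : Real.log ((∏ 𝔭 ∈ S, (1 - nrm F s 𝔭.asIdeal)) * zetaR F s) ≤ Real.log 2 :=
    Real.log_le_log (mul_pos hP hZ) hS
  rw [Real.log_mul hP.ne' hZ.ne', Real.log_prod (fun 𝔭 _ => (one_sub_nrm_pos F hs 𝔭).ne')] at h2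
  have h3 : - ∑ 𝔭 ∈ S, Real.log (1 - nrm F s 𝔭.asIdeal) ≤
      ∑ 𝔭 ∈ S, (nrm F s 𝔭.asIdeal + 2 * nrm F 2 𝔭.asIdeal) := by
    rw [← Finset.sum_neg_distrib]
    refine Finset.sum_le_sum (fun 𝔭 _ => ?_)
    have := neg_log_one_sub_le (nrm_nonneg F s 𝔭.asIdeal) (nrm_prime_le_half F hs.le 𝔭)
    have h4 := nrm_sq_le F hs 𝔭.asIdeal
    linarith
  rw [Finset.sum_add_distrib, ← Finset.mul_sum] at h3
  have h5 : ∑ 𝔭 ∈ S, nrm F s 𝔭.asIdeal ≤ primeIdealSum F s :=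
    (summable_nrm_prime F hs).sum_le_tsum S (fun 𝔭 _ => nrm_nonneg F s _)
  have h6 : ∑ 𝔭 ∈ S, nrm F 2 𝔭.asIdeal ≤ primeIdealSum F 2 :=
    (summable_nrm_prime F (by norm_num)).sum_le_tsum S (fun 𝔭 _ => nrm_nonneg F 2 _)
  linarith

/-- `log ζ_F(s) = log (1/(s-1)) + O(1)` on `(1, 2]`. -/
theorem log_zetaR_asymp :
    ∃ C : ℝ, ∀ s : ℝ, 1 < s → s ≤ 2 → |Real.log (zetaR F s) - Real.log (1 / (s - 1))| ≤ C := by
  have hκ := dedekindZeta_residue_pos F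
  set κ := dedekindZeta_residue F with hκdef
  have hlim := tendsto_sub_one_mul_zetaR F
  have hev : ∀ᶠ s in 𝓝[>] (1 : ℝ), (s - 1) * zetaR F s ∈ Set.Ioo (κ / 2) (2 * κ) :=
    hlim.eventually (Ioo_mem_nhds (by linarith) (by linarith))
  rw [eventually_nhdsWithin_iff, Metric.eventually_nhds_iff] at hev
  obtain ⟨δ, hδ, hball⟩ := hev
  set δ' := min δ 1 / 2 with hδ'
  have hδ'pos : 0 < δ' := by positivity
  have hδ'lt : δ' < δ := by
    have : min δ 1 ≤ δ := min_le_left _ _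
    rw [hδ']; linarith [lt_min hδ one_pos]
  -- uniform bounds for (s-1) Z(s)
  set m := min (κ / 2) δ' with hm
  set M := max (2 * κ) (zetaR F (1 + δ')) with hM
  have hmpos : 0 < m := lt_min (by linarith) hδ'pos
  have hbd : ∀ s : ℝ, 1 < s → s ≤ 2 → m ≤ (s - 1) * zetaR F s ∧ (s - 1) * zetaR F s ≤ M := by
    intro s hs hs2
    by_cases hclose : s < 1 + δ'
    · have hd : dist s 1 < δ := by
        rw [Real.dist_eq, abs_of_pos (by linarith)]; linarith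
      have := hball hd hs
      exact ⟨(min_le_left _ _).trans this.1.le, this.2.le.trans (le_max_left _ _)⟩
    · push Not at hclose
      have h1 := one_le_zetaR F hs
      have h2 := zetaR_antitone F (by linarith : (1 : ℝ) < 1 + δ') hclose
      constructor
      · calc m ≤ δ' := min_le_right _ _
          _ ≤ (s - 1) * 1 := by linarith
          _ ≤ (s - 1) * zetaR F s := by
            apply mul_le_mul_of_nonneg_left h1; linarith
      · calc (s - 1) * zetaR F s ≤ 1 * zetaR F s := by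
              apply mul_le_mul_of_nonneg_right (by linarith) (by linarith)
          _ ≤ zetaR F (1 + δ') := by linarith
          _ ≤ M := le_max_right _ _
  refine ⟨max |Real.log m| |Real.log M|, fun s hs hs2 => ?_⟩
  obtain ⟨h1, h2⟩ := hbd s hs hs2
  have hZ : 0 < zetaR F s := lt_of_lt_of_le one_pos (one_le_zetaR F hs)
  have hs1 : 0 < s - 1 := by linarith
  have heq : Real.log (zetaR F s) - Real.log (1 / (s - 1)) = Real.log ((s - 1) * zetaR F s) := by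
    rw [Real.log_mul hs1.ne' hZ.ne', one_div, Real.log_inv]; ring
  rw [heq]
  have hl1 : Real.log m ≤ Real.log ((s - 1) * zetaR F s) := Real.log_le_log hmpos h1
  have hl2 : Real.log ((s - 1) * zetaR F s) ≤ Real.log M :=
    Real.log_le_log (lt_of_lt_of_le hmpos h1) h2
  rw [abs_le]
  constructor
  · have := neg_abs_le (Real.log m)
    have h3 := le_max_left |Real.log m| |Real.log M|
    linarith
  · have := le_abs_self (Real.log M)
    have h3 := le_max_right |Real.log m| |Real.log M|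
    linarith

/-- `∑_𝔭 N𝔭^(-s) = log (1/(s-1)) + O(1)` on `(1, 2]`. -/
theorem primeIdealSum_asymp :
    ∃ C : ℝ, ∀ s : ℝ, 1 < s → s ≤ 2 → |primeIdealSum F s - Real.log (1 / (s - 1))| ≤ C := by
  obtain ⟨C, hC⟩ := log_zetaR_asymp F
  refine ⟨C + (Real.log 2 + 2 * primeIdealSum F 2), fun s hs hs2 => ?_⟩
  have h1 := primeIdealSum_le_log_zetaR F hs
  have h2 := log_zetaR_le F hs
  have h3 := abs_le.mp (hC s hs hs2)
  have h4 : 0 ≤ Real.log 2 := Real.log_nonneg (by norm_num)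
  have h5 : 0 ≤ primeIdealSum F 2 := tsum_nonneg (fun 𝔭 => nrm_nonneg F 2 _)
  rw [abs_le]
  constructor <;> linarith [h3.1, h3.2]

end Fermat.Agent.Cheb
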