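import Fermat.Agent.Cheb.Final
import Fermat.Agent.Cheb.Apply

/-!
# Generator-Chebotarev: unconditional consumer statements
-/

set_option autoImplicit false

namespace Fermat.Agent.Cheb

open Polynomial

local notation "Qbar" => AlgebraicClosure ℚ
local notation "GQ" => (AlgebraicClosure ℚ ≃ₐ[ℚ] AlgebraicClosure ℚ)

/-- Unfolded form of `preludeSpec`. -/
theorem exists_frobenius_generator (L : IntermediateField ℚ Qbar) [FiniteDimensional ℚ L]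
    (σ : GQ) (T : Finset ℕ) :
    ∃ (ℓ : ℕ) (A : ValuationSubring Qbar) (τ : GQ) (a b : ℕ),
      ℓ.Prime ∧ ℓ ∉ T ∧ A.LiesOverPrime ℓ ∧ A.IsFrobeniusAt τ ℓ ∧
      (∀ s ∈ A.inertiaSubgroupIn ℚ, ∀ x ∈ L, s x = x) ∧
      (∀ x ∈ L, (τ ^ a) x = σ x) ∧ (∀ x ∈ L, (σ ^ b) x = τ x) :=
  preludeSpec L inferInstance σ T

/-- Density principle (unconditional). -/
theorem frobenius_induction (T : Finset ℕ) (P : GQ → Prop)
    (hclosed : ∀ σ : GQ, (∀ L : IntermediateField ℚ Qbar, FiniteDimensional ℚ L →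
      ∃ σ' : GQ, (∀ x ∈ L, σ' x = σ x) ∧ P σ') → P σ)
    (hpow : ∀ (τ : GQ) (a : ℕ), P τ → P (τ ^ a))
    (hfrob : ∀ ℓ : ℕ, ℓ.Prime → ℓ ∉ T → ∀ A : ValuationSubring Qbar, A.LiesOverPrime ℓ →
      ∀ τ : GQ, A.IsFrobeniusAt τ ℓ → P τ) (σ : GQ) : P σ :=
  preludeSpec.induction T P hclosed hpow hfrob σ

variable {R S : Type} [CommRing R] [IsLocalRing R] [CommRing S] [IsLocalRing S]

theorem charpoly_map_eq_adic (π : R →+* S) [IsLocalHom π]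
    (hS : ∀ x : S, (∀ n, x ∈ IsLocalRing.maximalIdeal S ^ n) → x = 0)
    (ρ₁ : GaloisRepAdic R) (ρ₂ : GaloisRepAdic S) (T : Finset ℕ)
    (hfrob : ∀ ℓ : ℕ, ℓ.Prime → ℓ ∉ T → ∀ A : ValuationSubring Qbar, A.LiesOverPrime ℓ →
      ∀ τ : GQ, A.IsFrobeniusAt τ ℓ → (ρ₁.ρ τ).charpoly.map π = (ρ₂.ρ τ).charpoly) (σ : GQ) :
    (ρ₁.ρ σ).charpoly.map π = (ρ₂.ρ σ).charpoly :=
  preludeSpec.charpoly_map_eq_adic π hS ρ₁ ρ₂ T hfrob σ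

theorem charpoly_map_eq_adic_residual {k : Type} [Field k]
    (π : R →+* k) [IsLocalHom π] (ρ₁ : GaloisRepAdic R) (ρ₂ : ResidualGaloisRep k) (T : Finset ℕ)
    (hfrob : ∀ ℓ : ℕ, ℓ.Prime → ℓ ∉ T → ∀ A : ValuationSubring Qbar, A.LiesOverPrime ℓ →
      ∀ τ : GQ, A.IsFrobeniusAt τ ℓ → (ρ₁.ρ τ).charpoly.map π = (ρ₂.ρ τ).charpoly) (σ : GQ) :
    (ρ₁.ρ σ).charpoly.map π = (ρ₂.ρ σ).charpoly :=
  preludeSpec.charpoly_map_eq_adic_residual π ρ₁ ρ₂ T hfrob σ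

theorem charpoly_map_eq_residual {k k' : Type} [Field k] [Field k']
    (π : k →+* k') (ρ₁ : ResidualGaloisRep k) (ρ₂ : ResidualGaloisRep k') (T : Finset ℕ)
    (hfrob : ∀ ℓ : ℕ, ℓ.Prime → ℓ ∉ T → ∀ A : ValuationSubring Qbar, A.LiesOverPrime ℓ →
      ∀ τ : GQ, A.IsFrobeniusAt τ ℓ → (ρ₁.ρ τ).charpoly.map π = (ρ₂.ρ τ).charpoly) (σ : GQ) :
    (ρ₁.ρ σ).charpoly.map π = (ρ₂.ρ σ).charpoly :=
  preludeSpec.charpoly_map_eq_residual π ρ₁ ρ₂ T hfrob σ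

end Fermat.Agent.Cheb
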